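/-
P-ES / ES-A (helper23): interface definitions for "torsion of the Jacobian of X₀(N) over ℂ
via characters of Γ₀(N)".  Definitions and statement-Props only.

Conventions.
* `FC N` is the function field of `X₀(N)` over `ℂ`, realised inside `ℂ((q))` by the prelude
  (`laurentBaseChange ℂ (modularFunctionFieldFull N)`).
* Holomorphic functions on the upper half plane are linked to Laurent series by the landed
  relation `Fermat.Agent.H44.LaurentRel h x` (`h` is holomorphic on `ℍ`, `1`-periodic, with a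
  pole of finite order at `i∞` and Laurent `q`-expansion `x`).
* Only holomorphic functions on `ℍ` are used (no meromorphic functions on `ℍ`).
-/
import Fermat.Agent.H23.BlueprintAn
import Fermat.Agent.H44.Gen11.Rel

set_option autoImplicit false

noncomputable section

open AlgebraicCurve UpperHalfPlane
open scoped MatrixGroups Manifold

namespace Fermat.Agent.H23.EsA

/-- The function field of `X₀(N)` over `ℂ`. -/
abbrev FC (N : ℕ) : IntermediateField ℂ (LaurentSeries ℂ) :=
  ModularCurve.laurentBaseChange ℂ (ModularCurve.modularFunctionFieldFull N)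

/-- The elements `j(q^d)`, `d ∣ N`, of `FC N`. -/
def jC (N : ℕ) [NeZero N] (d : ℕ) [NeZero d] (hd : d ∣ N) : ↥(FC N) :=
  ⟨ModularCurve.coeffEmb ℂ (ModularCurve.qExpand ℚ d ModularCurve.jq),
    ModularCurve.coeffEmb_mem_laurentBaseChange _ (ModularCurve.jqd_mem_full N hd)⟩

/-- The `ℂ`-subalgebra of `FC N` generated by the `j(q^d)`, `d ∣ N`. -/
def RsubC (N : ℕ) [NeZero N] : Subalgebra ℂ ↥(FC N) :=
  Algebra.adjoin ℂ {x | ∃ (d : ℕ) (_ : NeZero d) (hd : d ∣ N), x = jC N d hd}

/-- The holomorphic function `h` on `ℍ` *represents* the element `f` of the function field: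
its Laurent `q`-expansion is `f`. -/
def Rep (N : ℕ) (h : ℍ → ℂ) (f : ↥(FC N)) : Prop :=
  Fermat.Agent.H44.LaurentRel h (f : LaurentSeries ℂ)

/-- A function on `ℍ` has *moderate growth at all cusps*. -/
def ModerateGrowth (h : ℍ → ℂ) : Prop :=
  ∀ γ : SL(2, ℤ), ∃ (M : ℕ) (C Y : ℝ), ∀ z : ℍ, Y ≤ z.im →
    ‖h (γ • z)‖ ≤ C * Real.exp (2 * Real.pi * M * z.im)

/-- A (unitary) character of `Γ₀(N)` is *parabolic-elliptic trivial* if it kills every element
of trace of absolute value at most `2` (i.e. `±1`, the elliptic and the parabolic elements). -/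
def IsParEllTrivial (N : ℕ) (χ : ↥(CongruenceSubgroup.Gamma0 N) →* ℂˣ) : Prop :=
  ∀ γ : ↥(CongruenceSubgroup.Gamma0 N),
    |((γ : SL(2, ℤ)) 0 0 + (γ : SL(2, ℤ)) 1 1 : ℤ)| ≤ 2 → χ γ = 1

/-- The holomorphic function `G` on `ℍ` transforms under `Γ₀(N)` by the character `χ`. -/
def HasCharacter (N : ℕ) (G : ℍ → ℂ) (χ : ↥(CongruenceSubgroup.Gamma0 N) →* ℂˣ) : Prop :=
  ∀ (γ : ↥(CongruenceSubgroup.Gamma0 N)) (z : ℍ),
    G ((γ : SL(2, ℤ)) • z) = (χ γ : ℂ) * G z

/-- **The torsion–character relation.**  The class `x ∈ Pic⁰(FC N)` is represented by a divisor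
`D` of degree zero with `m • D = div f`, where `f` is represented by `G ^ m` for a holomorphic
function `G` on `ℍ` transforming by the character `χ`. -/
def TorsionCharRel (N : ℕ) (m : ℕ) (x : Pic0 ℂ ↥(FC N))
    (χ : ↥(CongruenceSubgroup.Gamma0 N) →* ℂˣ) : Prop :=
  ∃ (D : Divisor.degZero (K := ℂ) (F := ↥(FC N))) (f : ↥(FC N)) (G : ℍ → ℂ),
    Pic0.mk D = x ∧ f ≠ 0 ∧
    (∀ v : Place ℂ ↥(FC N), v.ord f = (m : ℤ) * (D : Divisor ℂ ↥(FC N)) v) ∧
    MDiff G ∧ Rep N (G ^ m) f ∧ HasCharacter N G χ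

/-- **ES-A (main statement).**  For `m > 0` the relation `TorsionCharRel N m` is the graph of a
group isomorphism between `Pic⁰(FC N)[m]` and the group of parabolic-elliptic trivial characters
of `Γ₀(N)` of exponent `m`. -/
def TorsionCharStatement (N : ℕ) [NeZero N] : Prop :=
  ∀ m : ℕ, 0 < m →
    -- every `m`-torsion class has a character
    (∀ x : Pic0 ℂ ↥(FC N), x ∈ Pic0.torsion ℂ ↥(FC N) m → ∃ χ, TorsionCharRel N m x χ) ∧
    -- the character is unique
    (∀ x χ χ', TorsionCharRel N m x χ → TorsionCharRel N m x χ' → χ = χ') ∧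
    -- related pairs consist of a torsion class and an admissible character
    (∀ x χ, TorsionCharRel N m x χ →
      x ∈ Pic0.torsion ℂ ↥(FC N) m ∧ χ ^ m = 1 ∧ IsParEllTrivial N χ) ∧
    -- additivity
    (∀ x x' χ χ', TorsionCharRel N m x χ → TorsionCharRel N m x' χ' →
      TorsionCharRel N m (x + x') (χ * χ')) ∧
    -- injectivity
    (∀ x, TorsionCharRel N m x 1 → x = 0) ∧
    -- surjectivity
    (∀ χ : ↥(CongruenceSubgroup.Gamma0 N) →* ℂˣ, χ ^ m = 1 → IsParEllTrivial N χ →
      ∃ x, TorsionCharRel N m x χ)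

end Fermat.Agent.H23.EsA

end
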