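/-
P-ES / ES-A (helper23): statement-Props of the sub-packages of `TorsionCharStatement`.
Interfaces only.
-/
import Fermat.Agent.H23.EsA.Defs

set_option autoImplicit false

noncomputable section

open AlgebraicCurve UpperHalfPlane IntermediateField
open scoped MatrixGroups Manifold

namespace Fermat.Agent.H23.EsA

/-! ### Low-level packages -/

/-- **[CORE-C]** (port of GEN-11 to `ℂ`): the generators `j(q^d)` of the function field are
represented by the functions `z ↦ j(d z)`, and the function field is the field of fractions of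
`RsubC N`. -/
def CoreCStatement (N : ℕ) [NeZero N] : Prop :=
  (∀ (d : ℕ) (_ : NeZero d) (hd : d ∣ N), Rep N (fun z => jfun (scaleH d z)) (jC N d hd)) ∧
  (∀ f : ↥(FC N), ∃ r s : ↥(FC N), r ∈ RsubC N ∧ s ∈ RsubC N ∧ s ≠ 0 ∧ f * s = r)

/-- **[REP]** every element of `RsubC N` is represented by a holomorphic `Γ₀(N)`-invariant
function of moderate growth (consequence of [CORE-C], the landed separation statement and the
landed growth lemmas). -/
def RsubRepStatement (N : ℕ) [NeZero N] : Prop :=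
  ∀ r : ↥(FC N), r ∈ RsubC N → ∃ h : ℍ → ℂ, Rep N h r ∧ MDiff h ∧
    (∀ γ ∈ CongruenceSubgroup.Gamma0 N, ∀ z : ℍ, h (γ • z) = h z) ∧ ModerateGrowth h

/-- **[DEG-C]** (port of GEN-16 and of the lower bound to `ℂ`): `j` is transcendental and the
function field has degree exactly the index of `Γ₀(N)` over `ℂ(j)`. -/
def DegreeCStatement (N : ℕ) [NeZero N] : Prop :=
  Transcendental ℂ (jC N 1 (one_dvd N)) ∧
    FiniteDimensional ℂ⟮jC N 1 (one_dvd N)⟯ ↥(FC N) ∧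
    Module.finrank ℂ⟮jC N 1 (one_dvd N)⟯ ↥(FC N)
      = Nat.card (SL(2, ℤ) ⧸ CongruenceSubgroup.Gamma0 N)

/-- **[PD-C]** principal divisors exist (finite support) and have degree zero. -/
def PrincipalDivisorCStatement (N : ℕ) [NeZero N] : Prop :=
  HasPrincipalDivisors (K := ℂ) (F := ↥(FC N)) ∧
  (∀ f : ↥(FC N), f ≠ 0 → (∀ v : Place ℂ ↥(FC N), v.ord f = 0) →
    ∃ c : ℂ, f = algebraMap ℂ ↥(FC N) c)

/-- The place `v` is the place of the point `z₀ ∈ ℍ`, with multiplier `s` (weak form: `s` is a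
multiple of the order of the stabiliser of `z₀` in `Γ₀(N)/±1`). -/
def IsPointPlace (N : ℕ) (z₀ : ℍ) (v : Place ℂ ↥(FC N)) (s : ℕ) : Prop :=
  0 < s ∧
  (∀ (f : ↥(FC N)) (h : ℍ → ℂ), f ≠ 0 → Rep N h f →
    meromorphicOrderAt (h ∘ ofComplex) (z₀ : ℂ) = (((s : ℤ) * v.ord f : ℤ) : WithTop ℤ)) ∧
  (∀ γ ∈ CongruenceSubgroup.Gamma0 N, γ • z₀ = z₀ → (denom γ z₀ ^ 2) ^ s = 1)

/-- Strong form: moreover `s` is exactly the order of the group of multipliers
`{(c z₀ + d)² : γ ∈ Γ₀(N), γ z₀ = z₀}`. -/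
def IsPointPlaceStrong (N : ℕ) (z₀ : ℍ) (v : Place ℂ ↥(FC N)) (s : ℕ) : Prop :=
  IsPointPlace N z₀ v s ∧
  (∀ k : ℤ, (∀ γ ∈ CongruenceSubgroup.Gamma0 N, γ • z₀ = z₀ →
      (denom γ z₀ ^ 2) ^ k = 1) → (s : ℤ) ∣ k)

/-- Order at the cusp `i∞` of a `w`-periodic function, in the variable `exp(2πi z / w)`. -/
def cuspOrd (w : ℕ) (H : ℍ → ℂ) : WithTop ℤ :=
  meromorphicOrderAt (Function.Periodic.cuspFunction (w : ℝ) (H ∘ ofComplex)) 0

/-- The place `v` is the place of the cusp `δ • i∞`, of width `w`. -/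
def IsCuspPlace (N : ℕ) (δ : SL(2, ℤ)) (v : Place ℂ ↥(FC N)) (w : ℕ) : Prop :=
  0 < w ∧
  (∀ k : ℤ, δ * ModularGroup.T ^ k * δ⁻¹ ∈ CongruenceSubgroup.Gamma0 N ↔ (w : ℤ) ∣ k) ∧
  (∀ (f : ↥(FC N)) (h : ℍ → ℂ), f ≠ 0 → Rep N h f →
    cuspOrd w (fun z => h (δ • z)) = ((v.ord f : ℤ) : WithTop ℤ))

/-- **[PLACES]** every point of `ℍ` and every cusp has a place, and every place of the function
field arises in this way. -/
def PlacesStatement (N : ℕ) [NeZero N] : Prop :=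
  (∀ z₀ : ℍ, ∃ v s, IsPointPlace N z₀ v s) ∧
  (∀ δ : SL(2, ℤ), ∃ v w, IsCuspPlace N δ v w) ∧
  (∀ v : Place ℂ ↥(FC N),
    (∃ z₀ s, IsPointPlaceStrong N z₀ v s) ∨ (∃ δ w, IsCuspPlace N δ v w))

/-- **[ROOT]** (Mathlib only): a nonzero holomorphic function on `ℍ` all of whose orders of
vanishing are divisible by `m` has a holomorphic `m`-th root. -/
def RootStatement : Prop :=
  ∀ m : ℕ, 0 < m → ∀ h : ℍ → ℂ, MDiff h →
    (∀ z₀ : ℍ, ∃ k : ℕ, meromorphicOrderAt (h ∘ ofComplex) (z₀ : ℂ) = (((m * k : ℕ) : ℤ) : WithTop ℤ)) →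
    ∃ G : ℍ → ℂ, MDiff G ∧ G ^ m = h

/-- **[CHAR]** (Mathlib only): a nonzero holomorphic function whose `m`-th power is
`Γ₀(N)`-invariant transforms by a character of exponent `m`; the character is unique. -/
def CharOfRootStatement (N : ℕ) : Prop :=
  ∀ m : ℕ, 0 < m → ∀ G : ℍ → ℂ, MDiff G → G ≠ 0 →
    ((∀ γ ∈ CongruenceSubgroup.Gamma0 N, ∀ z : ℍ, G (γ • z) ^ m = G z ^ m) →
      ∃ χ : ↥(CongruenceSubgroup.Gamma0 N) →* ℂˣ, χ ^ m = 1 ∧ HasCharacter N G χ) ∧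
    (∀ χ χ' : ↥(CongruenceSubgroup.Gamma0 N) →* ℂˣ,
      HasCharacter N G χ → HasCharacter N G χ' → χ = χ')

/-- **[HOL]** every holomorphic `Γ₀(N)`-invariant function of moderate growth at all cusps is
(represents) an element of the function field. -/
def HolModularStatement (N : ℕ) [NeZero N] : Prop :=
  ∀ h : ℍ → ℂ, MDiff h → (∀ γ ∈ CongruenceSubgroup.Gamma0 N, ∀ z : ℍ, h (γ • z) = h z) →
    ModerateGrowth h → ∃ f : ↥(FC N), Rep N h f

/-- **[EIS]** for every parabolic-elliptic trivial character of finite exponent there is a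
nonzero holomorphic function on `ℍ` of moderate growth transforming by it
(`E_χ · E₄² / Δ` with `E_χ` the weight-4 Eisenstein series with character). -/
def EisCharStatement (N : ℕ) [NeZero N] : Prop :=
  ∀ (m : ℕ) (χ : ↥(CongruenceSubgroup.Gamma0 N) →* ℂˣ), 0 < m → χ ^ m = 1 →
    IsParEllTrivial N χ →
    ∃ G : ℍ → ℂ, MDiff G ∧ G ≠ 0 ∧ HasCharacter N G χ ∧ ModerateGrowth G

/-! ### Mid-level packages (the conjuncts of `TorsionCharStatement`) -/

/-- **[A-FWD]** every torsion class has a character. -/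
def ForwardStatement (N : ℕ) [NeZero N] : Prop :=
  ∀ m : ℕ, 0 < m → ∀ x : Pic0 ℂ ↥(FC N), x ∈ Pic0.torsion ℂ ↥(FC N) m →
    ∃ χ, TorsionCharRel N m x χ

/-- **[A-UNIQ]** the character of a class is unique. -/
def UniqueStatement (N : ℕ) [NeZero N] : Prop :=
  ∀ m : ℕ, 0 < m → ∀ x χ χ', TorsionCharRel N m x χ → TorsionCharRel N m x χ' → χ = χ'

/-- **[A-ADM]** related pairs are admissible. -/
def AdmissibleStatement (N : ℕ) [NeZero N] : Prop :=
  ∀ m : ℕ, 0 < m → ∀ x χ, TorsionCharRel N m x χ →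
    x ∈ Pic0.torsion ℂ ↥(FC N) m ∧ χ ^ m = 1 ∧ IsParEllTrivial N χ

/-- **[A-ADD]** additivity. -/
def AdditiveStatement (N : ℕ) [NeZero N] : Prop :=
  ∀ m : ℕ, 0 < m → ∀ x x' χ χ', TorsionCharRel N m x χ → TorsionCharRel N m x' χ' →
    TorsionCharRel N m (x + x') (χ * χ')

/-- **[A-INJ]** injectivity. -/
def InjectiveStatement (N : ℕ) [NeZero N] : Prop :=
  ∀ m : ℕ, 0 < m → ∀ x, TorsionCharRel N m x 1 → x = 0

/-- **[A-SURJ]** surjectivity. -/
def SurjectiveStatement (N : ℕ) [NeZero N] : Prop :=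
  ∀ m : ℕ, 0 < m → ∀ χ : ↥(CongruenceSubgroup.Gamma0 N) →* ℂˣ, χ ^ m = 1 →
    IsParEllTrivial N χ → ∃ x, TorsionCharRel N m x χ

theorem torsionChar_of_parts (N : ℕ) [NeZero N] (h1 : ForwardStatement N)
    (h2 : UniqueStatement N) (h3 : AdmissibleStatement N) (h4 : AdditiveStatement N)
    (h5 : InjectiveStatement N) (h6 : SurjectiveStatement N) : TorsionCharStatement N :=
  fun m hm => ⟨h1 m hm, h2 m hm, h3 m hm, h4 m hm, h5 m hm, h6 m hm⟩

end Fermat.Agent.H23.EsA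

end
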