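/-
P-ES / ES-A (helper23): coset data over an arbitrary base field and subgroup (generalisation of
`Fermat.Agent.H23.AnalyticDatum`), and the statement-Props of the sub-packages of
`PlacesStatement`.
-/
import Fermat.Agent.H23.EsA.Parts

set_option autoImplicit false

noncomputable section

open AlgebraicCurve UpperHalfPlane IntermediateField
open scoped MatrixGroups Manifold

namespace Fermat.Agent.H23.EsA

/-- **Coset datum**: a valued differential field `M` and a family of embeddings of the function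
field `F/K` into `M` indexed by `γ ∈ SL(2,ℤ)`, depending exactly on the left coset `γ Γ`; `g`
generates the stabiliser of the base point and `e₀` is the order of vanishing of `y` there.
(Same fields as `Fermat.Agent.H23.AnalyticDatum`, for general `K`, `F`, `Γ`.) -/
structure CosetDatum (K F : Type) [Field K] [Field F] [Algebra K F] (Γ : Subgroup SL(2, ℤ))
    (y : F) (g : SL(2, ℤ)) (e₀ : ℕ) where
  M : Type
  [fieldM : Field M]
  val : AddValuation M (WithTop ℤ)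
  der : M → M
  der_add : ∀ a b : M, der (a + b) = der a + der b
  der_mul : ∀ a b : M, der (a * b) = a * der b + der a * b
  val_der : ∀ (a : M) (n : ℤ), n ≠ 0 → val a = (n : WithTop ℤ) →
    val (der a) = ((n - 1 : ℤ) : WithTop ℤ)
  σ : SL(2, ℤ) → (F →+* M)
  val_const : ∀ (γ : SL(2, ℤ)) (c : K), c ≠ 0 → val (σ γ (algebraMap K F c)) = 0
  der_const : ∀ (γ : SL(2, ℤ)) (c : K), der (σ γ (algebraMap K F c)) = 0
  σ_const : ∀ (γ γ' : SL(2, ℤ)) (c : K), σ γ (algebraMap K F c) = σ γ' (algebraMap K F c)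
  σ_eq_iff : ∀ γ γ' : SL(2, ℤ), σ γ = σ γ' ↔ γ⁻¹ * γ' ∈ Γ
  σ_y : ∀ γ γ' : SL(2, ℤ), σ γ y = σ γ' y
  val_y : ∀ γ : SL(2, ℤ), val (σ γ y) = ((e₀ : ℤ) : WithTop ℤ)
  val_g : ∀ (γ : SL(2, ℤ)) (f : F), val (σ (g * γ) f) = val (σ γ f)
  val_dvd : ∀ (γ : SL(2, ℤ)) (k : ℕ), γ⁻¹ * g ^ k * γ ∈ Γ →
    ∀ f : F, f ≠ 0 →
      ∃ m : ℤ, val (σ γ f) = ((((e₀ / Nat.gcd e₀ k : ℕ) : ℤ) * m : ℤ) : WithTop ℤ)

attribute [instance] CosetDatum.fieldM

/-- Turn a coset datum (indexed by `SL(2,ℤ)`) into a local datum (indexed by cosets). -/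
def CosetDatum.toLocalDatum {K F : Type} [Field K] [Field F] [Algebra K F]
    {Γ : Subgroup SL(2, ℤ)} {y : F} {g : SL(2, ℤ)} {e₀ : ℕ}
    (A : CosetDatum K F Γ y g e₀) (he : 0 < e₀) [Fintype (SL(2, ℤ) ⧸ Γ)] :
    LocalDatum K F y where
  M := A.M
  val := A.val
  der := A.der
  der_add := A.der_add
  der_mul := A.der_mul
  val_der := A.val_der
  I := SL(2, ℤ) ⧸ Γ
  σ := Quotient.lift A.σ (fun γ γ' h => (A.σ_eq_iff γ γ').mpr (QuotientGroup.leftRel_apply.mp h))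
  val_const := by
    rintro ⟨γ⟩ c hc
    exact A.val_const γ c hc
  der_const := by
    rintro ⟨γ⟩ c
    exact A.der_const γ c
  σ_const := by
    rintro ⟨γ⟩ ⟨γ'⟩ c
    exact A.σ_const γ γ' c
  σ_inj := by
    rintro ⟨γ⟩ ⟨γ'⟩ h
    exact Quotient.sound (QuotientGroup.leftRel_apply.mpr ((A.σ_eq_iff γ γ').mp h))
  σ_y := by
    rintro ⟨γ⟩ ⟨γ'⟩
    exact A.σ_y γ γ'
  e₀ := e₀
  e₀_pos := he
  val_y := by
    rintro ⟨γ⟩
    exact A.val_y γ
  ε := MulAction.toPerm g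
  val_ε := by
    rintro ⟨γ⟩ f
    exact A.val_g γ f
  val_dvd := by
    rintro ⟨γ⟩ k hk f hf
    refine A.val_dvd γ k ?_ f hf
    have h1 : ((MulAction.toPerm g : Equiv.Perm (SL(2, ℤ) ⧸ Γ)) ^ k)
        = MulAction.toPerm (g ^ k) := by
      rw [← MulAction.toPermHom_apply, ← map_pow]; rfl
    rw [h1] at hk
    have h2 : ((g ^ k * γ : SL(2, ℤ)) : SL(2, ℤ) ⧸ Γ) = (γ : SL(2, ℤ) ⧸ Γ) := hk
    rw [QuotientGroup.eq] at h2
    have h3 := Γ.inv_mem h2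
    simpa [mul_assoc] using h3

@[simp] lemma CosetDatum.toLocalDatum_I {K F : Type} [Field K] [Field F] [Algebra K F]
    {Γ : Subgroup SL(2, ℤ)} {y : F} {g : SL(2, ℤ)} {e₀ : ℕ}
    (A : CosetDatum K F Γ y g e₀) (he : 0 < e₀) [Fintype (SL(2, ℤ) ⧸ Γ)] :
    (A.toLocalDatum he).I = (SL(2, ℤ) ⧸ Γ) := rfl

@[simp] lemma CosetDatum.toLocalDatum_ε {K F : Type} [Field K] [Field F] [Algebra K F]
    {Γ : Subgroup SL(2, ℤ)} {y : F} {g : SL(2, ℤ)} {e₀ : ℕ}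
    (A : CosetDatum K F Γ y g e₀) (he : 0 < e₀) [Fintype (SL(2, ℤ) ⧸ Γ)] :
    (A.toLocalDatum he).ε = (MulAction.toPerm g : Equiv.Perm (SL(2, ℤ) ⧸ Γ)) := rfl

lemma CosetDatum.toLocalDatum_σ_mk {K F : Type} [Field K] [Field F] [Algebra K F]
    {Γ : Subgroup SL(2, ℤ)} {y : F} {g : SL(2, ℤ)} {e₀ : ℕ}
    (A : CosetDatum K F Γ y g e₀) (he : 0 < e₀) [Fintype (SL(2, ℤ) ⧸ Γ)] (γ : SL(2, ℤ)) :
    (A.toLocalDatum he).σ (QuotientGroup.mk γ : SL(2, ℤ) ⧸ Γ) = A.σ γ := rfl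

/-! ### Sub-packages of `PlacesStatement` -/

/-- **[PL-1]** germ embedding at an arbitrary point of `ℍ`: a valued field and an embedding of
the function field whose valuation is the order of vanishing at `z₀`. -/
def PointEmbeddingStatement (N : ℕ) [NeZero N] : Prop :=
  ∀ z₀ : ℍ, ∃ (M : Type) (_ : Field M) (val : AddValuation M (WithTop ℤ))
    (σ : ↥(FC N) →+* M),
    (∀ c : ℂ, c ≠ 0 → val (σ (algebraMap ℂ ↥(FC N) c)) = 0) ∧
    ∀ (f : ↥(FC N)) (h : ℍ → ℂ), f ≠ 0 → Rep N h f →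
      val (σ f) = meromorphicOrderAt (h ∘ ofComplex) (z₀ : ℂ)

/-- **[PL-2]** transparent coset datum at a base point over every `a ∈ ℂ`
(port of GEN-14 to `ℂ`, for *every* `a`, exposing the valuation). -/
def PointDatumStatement (N : ℕ) [NeZero N] : Prop :=
  ∀ a : ℂ, ∃ (z₀ : ℍ) (g : SL(2, ℤ)) (e₀ : ℕ)
    (A : CosetDatum ℂ ↥(FC N) (CongruenceSubgroup.Gamma0 N)
      (jC N 1 (one_dvd N) - algebraMap ℂ ↥(FC N) a) g e₀),
    0 < e₀ ∧ jfun z₀ = a ∧ g • z₀ = z₀ ∧ IsPrimitiveRoot (denom g z₀ ^ 2) e₀ ∧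
    ∀ (γ : SL(2, ℤ)) (f : ↥(FC N)) (h : ℍ → ℂ), f ≠ 0 → Rep N h f →
      A.val (A.σ γ f) = meromorphicOrderAt ((fun z => h (γ⁻¹ • z)) ∘ ofComplex) (z₀ : ℂ)

/-- **[PL-3]** transparent coset datum at the cusp (port of GEN-15 to `ℂ`). -/
def CuspDatumStatement (N : ℕ) [NeZero N] : Prop :=
  ∃ (A : CosetDatum ℂ ↥(FC N) (CongruenceSubgroup.Gamma0 N)
      (jC N 1 (one_dvd N))⁻¹ ModularGroup.T N),
    ∀ (γ : SL(2, ℤ)) (f : ↥(FC N)) (h : ℍ → ℂ), f ≠ 0 → Rep N h f →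
      A.val (A.σ γ f) = cuspOrd N (fun z => h (γ⁻¹ • z))

/-- **[PL-4]** refined local counting (general function fields): the place induced by `σ i` has
ramification index the length of the `ε`-cycle of `i`, and multiplier `e₀ / e`. -/
def LocalCountingRefinedStatement : Prop :=
  ∀ (K F : Type) [Field K] [Field F] [Algebra K F] [IsAlgClosed K] [CharZero K]
    (y : F) (L : LocalDatum K F y),
    (∀ v : Place K F, v.deg = 1) →
    {v : Place K F | 0 < v.ord y}.Finite →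
    (∑ᶠ v ∈ {v : Place K F | 0 < v.ord y}, v.ord y = (Fintype.card L.I : ℤ)) →
    ∀ i : L.I, ∃ (v : Place K F) (m : ℕ), 0 < v.ord y ∧ 0 < m ∧
      (∀ f : F, f ≠ 0 → L.val (L.σ i f) = (((m : ℤ) * v.ord f : ℤ) : WithTop ℤ)) ∧
      (m : ℤ) * v.ord y = (L.e₀ : ℤ) ∧
      ∀ k : ℕ, (L.ε ^ k) i = i ↔ v.ord y ∣ (k : ℤ)

end Fermat.Agent.H23.EsA

end
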