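/-
P-ES / ES-A (helper23): statement-Props of the auxiliary lemmas used by the mid-level
assemblies (all Mathlib-only unless stated).  Interfaces only.
-/
import Fermat.Agent.H23.EsA.DatumC

set_option autoImplicit false

noncomputable section

open AlgebraicCurve UpperHalfPlane IntermediateField
open scoped MatrixGroups Manifold

namespace Fermat.Agent.H23.EsA

/-- Moderate growth at `i∞` only. -/
def GrowthAtInfty (H : ℍ → ℂ) : Prop :=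
  ∃ (M : ℕ) (C Y : ℝ), ∀ z : ℍ, Y ≤ z.im → ‖H z‖ ≤ C * Real.exp (2 * Real.pi * M * z.im)

/-- **[REP-REG]** a holomorphic function representing an element of the function field is
`Γ₀(N)`-invariant and of moderate growth at all cusps. -/
def RepRegularStatement (N : ℕ) [NeZero N] : Prop :=
  ∀ (f : ↥(FC N)) (h : ℍ → ℂ), Rep N h f →
    (∀ γ ∈ CongruenceSubgroup.Gamma0 N, ∀ z : ℍ, h (γ • z) = h z) ∧ ModerateGrowth h

/-- **[MULT-CHAR]** multiplier lemma with character: if `G ∘ γ = c • G` and `γ` fixes `z₀`, where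
`G` has order `n`, then `c * ((c z₀ + d)²)ⁿ = 1`. -/
def MultiplierCharStatement : Prop :=
  ∀ (G : ℍ → ℂ), MDiff G → ∀ (γ : SL(2, ℤ)) (z₀ : ℍ), γ • z₀ = z₀ → ∀ c : ℂ,
    (∀ z : ℍ, G (γ • z) = c * G z) → ∀ n : ℕ,
    meromorphicOrderAt (G ∘ ofComplex) (z₀ : ℂ) = ((n : ℤ) : WithTop ℤ) →
    c * (denom γ z₀ ^ 2) ^ n = 1

/-- **[POW-ORD]** order of a power at a point of `ℍ`. -/
def PowOrderStatement : Prop :=
  ∀ (m : ℕ) (G : ℍ → ℂ), MDiff G → G ≠ 0 → ∀ z₀ : ℍ, ∃ n : ℕ,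
    meromorphicOrderAt (G ∘ ofComplex) (z₀ : ℂ) = ((n : ℤ) : WithTop ℤ) ∧
    meromorphicOrderAt ((G ^ m) ∘ ofComplex) (z₀ : ℂ) = (((m * n : ℕ) : ℤ) : WithTop ℤ)

/-- **[POW-EQ]** two holomorphic functions on `ℍ` with the same `m`-th power differ by an
`m`-th root of unity. -/
def PowEqStatement : Prop :=
  ∀ m : ℕ, 0 < m → ∀ G₁ G₂ : ℍ → ℂ, MDiff G₁ → MDiff G₂ → G₁ ^ m = G₂ ^ m →
    ∃ ζ : ℂ, ζ ^ m = 1 ∧ ∀ z, G₁ z = ζ * G₂ z

/-- **[CUSP-POW]** the cusp function of a `w`-periodic holomorphic function of moderate growth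
is meromorphic of finite order, and the order of a power is the multiple. -/
def CuspPowStatement : Prop :=
  ∀ (m w : ℕ), 0 < w → ∀ H : ℍ → ℂ, MDiff H → H ≠ 0 →
    (∀ z : ℍ, H (ModularGroup.T ^ w • z) = H z) → GrowthAtInfty H →
    ∃ n : ℤ, cuspOrd w H = ((n : ℤ) : WithTop ℤ) ∧
      cuspOrd w (H ^ m) = (((m : ℤ) * n : ℤ) : WithTop ℤ)

/-- **[CUSP-ROOT]** if `H(z + w) = ζ H(z)` with `ζ ^ m = 1`, and the order at the cusp of the
`w`-periodic function `H ^ m` is divisible by `m`, then `ζ = 1`. -/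
def CuspRootStatement : Prop :=
  ∀ (m w : ℕ), 0 < m → 0 < w → ∀ H : ℍ → ℂ, MDiff H → H ≠ 0 → GrowthAtInfty H →
    ∀ ζ : ℂ, ζ ^ m = 1 → (∀ z : ℍ, H (ModularGroup.T ^ w • z) = ζ * H z) →
    (∃ d : ℤ, cuspOrd w (H ^ m) = (((m : ℤ) * d : ℤ) : WithTop ℤ)) → ζ = 1

/-- **[ELL-FIX]** an element of `SL(2,ℤ)` of trace `0, ±1` has a fixed point in `ℍ`. -/
def EllipticFixStatement : Prop :=
  ∀ γ : SL(2, ℤ), |(γ 0 0 + γ 1 1 : ℤ)| < 2 → ∃ z₀ : ℍ, γ • z₀ = z₀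

/-- **[FIX-TR]** an element of `SL(2,ℤ)` with a fixed point in `ℍ` has trace of absolute value
at most `2`. -/
def FixTraceStatement : Prop :=
  ∀ (γ : SL(2, ℤ)) (z₀ : ℍ), γ • z₀ = z₀ → |(γ 0 0 + γ 1 1 : ℤ)| ≤ 2

/-- **[PAR-FORM]** an element of `SL(2,ℤ)` of trace `±2` is `±` a conjugate of a power of `T`. -/
def ParabolicFormStatement : Prop :=
  ∀ γ : SL(2, ℤ), |(γ 0 0 + γ 1 1 : ℤ)| = 2 →
    ∃ (δ : SL(2, ℤ)) (k : ℤ),
      γ = δ * ModularGroup.T ^ k * δ⁻¹ ∨ γ = -(δ * ModularGroup.T ^ k * δ⁻¹)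

end Fermat.Agent.H23.EsA

end
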