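/-
P-ES / ES-A (helper23): the main statements of ES-A, UNCONDITIONAL.

* `placesStatement N`        : the places of the function field of `X₀(N)` over `ℂ` are the
                               points of `ℍ` and the cusps;
* `kummerMapStatement N`     : the Kummer map (helper94's form);
* `torsionCharStatement N`   : `Pic⁰(FC N)[m] ≃ kummerChars N m` as the graph of the explicit
                               relation `TorsionCharRel`;
* `torsionEquiv`-type corollaries: bijection, finiteness, cardinality.
-/
import Fermat.Agent.H23.EsA.Main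
import Fermat.Agent.H69.DegreeC

set_option autoImplicit false

noncomputable section

open AlgebraicCurve UpperHalfPlane IntermediateField
open scoped MatrixGroups Manifold

namespace Fermat.Agent.H23.EsA

variable (N : ℕ) [NeZero N]

/-- **[DEG-C]** -/
theorem degreeCStatement : DegreeCStatement N := Fermat.Agent.H69.DegC.degreeC N

/-- **[PD-C]** -/
theorem principalDivisorCStatement : PrincipalDivisorCStatement N :=
  Fermat.Agent.H19.principalDivisorC_of_degreeC N (degreeCStatement N)

/-- **[PLACES]** -/
theorem placesStatement : PlacesStatement N := places_of_degree N (degreeCStatement N)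

/-- **ES-A MAIN (Kummer map form)**. -/
theorem kummerMapStatement : Fermat.Agent.H94.EsA.KummerMapStatement N :=
  kummerMap_of_degree N (degreeCStatement N)

/-- **ES-A MAIN (Pic⁰ form)**. -/
theorem torsionCharStatement : TorsionCharStatement N :=
  torsionChar_of_degree N (degreeCStatement N)

/-- **ES-A, bijection form**. -/
theorem exists_torsion_equiv {m : ℕ} (hm : 0 < m) :
    ∃ e : ↥(Pic0.torsion ℂ ↥(FC N) m) ≃ ↥(Fermat.Agent.H94.EsA.kummerChars N m),
      (∀ x : ↥(Pic0.torsion ℂ ↥(FC N) m), TorsionCharRel N m (x : Pic0 ℂ ↥(FC N))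
        ((e x : ↥(Fermat.Agent.H94.EsA.kummerChars N m)) :
          ↥(CongruenceSubgroup.Gamma0 N) →* ℂˣ)) ∧
      (∀ x y, e (x + y) = e x * e y) :=
  exists_equiv_of_torsionChar (torsionCharStatement N) hm

/-- **ES-A → ES-B**: the `m`-torsion of `Pic⁰` of the function field of `X₀(N)` over `ℂ` is
finite. -/
theorem finite_torsion_pic0 {m : ℕ} (hm : 0 < m) : Finite ↥(Pic0.torsion ℂ ↥(FC N) m) :=
  finite_torsion_of_degree N (degreeCStatement N) hm

/-- Cardinality of the torsion. -/
theorem card_torsion_pic0 {m : ℕ} (hm : 0 < m) :
    Nat.card ↥(Pic0.torsion ℂ ↥(FC N) m)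
      = Nat.card ↥(Fermat.Agent.H94.EsA.kummerChars N m) :=
  card_torsion (torsionCharStatement N) hm

end Fermat.Agent.H23.EsA

end
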