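/-
P-ES (helper23): finiteness of the torsion of `J₀(N)(ℚ̄)`, from ES-A (torsion over `ℂ`) and
ES-B (descent).
-/
import Fermat.Agent.H23.EsA.Unconditional
import Fermat.Agent.H29.ESB.Descent

set_option autoImplicit false

noncomputable section

open AlgebraicCurve UpperHalfPlane IntermediateField
open scoped MatrixGroups Manifold

namespace Fermat.Agent.H23.EsA

variable (N : ℕ) [NeZero N]

/-- An embedding of `ℚ̄` into `ℂ`. -/
def embQBar : AlgebraicClosure ℚ →+* ℂ :=
  haveI : Algebra.IsAlgebraic ℚ (AlgebraicClosure ℚ) := AlgebraicClosure.isAlgebraic ℚ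
  (IsAlgClosed.lift : AlgebraicClosure ℚ →ₐ[ℚ] ℂ).toRingHom

/-- **ES-A + ES-B**: comparison of the torsion over `ℚ̄` and over `ℂ`: an injective
homomorphism `φ : Pic⁰(ℚ̄(X₀(N))) → Pic⁰(ℂ(X₀(N)))`, compatible with the coefficientwise
embedding of `q`-expansions, which restricts to a bijection on `m`-torsion. -/
theorem exists_torsion_comparison :
    ∃ (bc : ↥(ModularCurve.modularFunctionFieldBar N) →+* ↥(FC N))
      (ext : Place (AlgebraicClosure ℚ) ↥(ModularCurve.modularFunctionFieldBar N) →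
        Place ℂ ↥(FC N))
      (φ : Pic0 (AlgebraicClosure ℚ) ↥(ModularCurve.modularFunctionFieldBar N) →+
        Pic0 ℂ ↥(FC N)),
      (∀ f, ((bc f : ↥(FC N)) : LaurentSeries ℂ)
          = ModularCurve.coeffMap embQBar (f : LaurentSeries (AlgebraicClosure ℚ))) ∧
      Function.Injective ext ∧
      (∀ v f, (ext v).ord (bc f) = v.ord f) ∧
      (∀ w : Place ℂ ↥(FC N), w ∉ Set.range ext → ∀ f, w.ord (bc f) = 0) ∧
      (∀ (D : Divisor (AlgebraicClosure ℚ) ↥(ModularCurve.modularFunctionFieldBar N))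
          (hD : D ∈ Divisor.degZero (K := AlgebraicClosure ℚ)
            (F := ↥(ModularCurve.modularFunctionFieldBar N)))
          (hD' : Fermat.Agent.H29.divisorBC ext D ∈ Divisor.degZero (K := ℂ) (F := ↥(FC N))),
          φ (Pic0.mk ⟨D, hD⟩) = Pic0.mk ⟨Fermat.Agent.H29.divisorBC ext D, hD'⟩) ∧
      Function.Injective φ ∧
      ∀ m : ℕ, 0 < m →
        (∀ z : Pic0 ℂ ↥(FC N), z ∈ Pic0.torsion ℂ ↥(FC N) m →
          ∃ z₀ : Pic0 (AlgebraicClosure ℚ) ↥(ModularCurve.modularFunctionFieldBar N),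
            z₀ ∈ Pic0.torsion (AlgebraicClosure ℚ) ↥(ModularCurve.modularFunctionFieldBar N) m ∧
            φ z₀ = z) ∧
        Nat.card (Pic0.torsion (AlgebraicClosure ℚ)
            ↥(ModularCurve.modularFunctionFieldBar N) m)
          = Nat.card (Pic0.torsion ℂ ↥(FC N) m) := by
  obtain ⟨bc, ext, φ, h1, h2, h3, h4, h5, -, h7, h8⟩ :=
    Fermat.Agent.H29.descentStatement N embQBar
  exact ⟨bc, ext, φ, h1, h2, h3, h4, h5, h7, fun m hm => h8 m hm (finite_torsion_pic0 N hm)⟩

/-- **`J₀(N)(ℚ̄)[m]` is finite.** -/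
theorem finite_jTors {m : ℕ} (hm : 0 < m) :
    Finite ↥(Pic0.torsion (AlgebraicClosure ℚ) ↥(ModularCurve.modularFunctionFieldBar N) m) := by
  obtain ⟨bc, ext, φ, -, -, -, -, -, hinj, -⟩ := exists_torsion_comparison N
  have hfin := finite_torsion_pic0 N hm
  have hmap : ∀ z : Pic0 (AlgebraicClosure ℚ) ↥(ModularCurve.modularFunctionFieldBar N),
      z ∈ Pic0.torsion (AlgebraicClosure ℚ) ↥(ModularCurve.modularFunctionFieldBar N) m →
      φ z ∈ Pic0.torsion ℂ ↥(FC N) m := by
    intro z hz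
    rw [Pic0.mem_torsion] at hz ⊢
    rw [← map_zsmul, hz, map_zero]
  let ψ : ↥(Pic0.torsion (AlgebraicClosure ℚ) ↥(ModularCurve.modularFunctionFieldBar N) m) →
      ↥(Pic0.torsion ℂ ↥(FC N) m) := fun z => ⟨φ z, hmap z z.2⟩
  have hψ : Function.Injective ψ := by
    intro a b hab
    have : φ a = φ b := congrArg Subtype.val hab
    exact Subtype.ext (hinj this)
  exact Finite.of_injective ψ hψ

/-- The number of `m`-torsion points of `J₀(N)(ℚ̄)` is the number of Kummer characters. -/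
theorem card_jTors {m : ℕ} (hm : 0 < m) :
    Nat.card ↥(Pic0.torsion (AlgebraicClosure ℚ) ↥(ModularCurve.modularFunctionFieldBar N) m)
      = Nat.card ↥(Fermat.Agent.H94.EsA.kummerChars N m) := by
  obtain ⟨bc, ext, φ, -, -, -, -, -, -, h⟩ := exists_torsion_comparison N
  rw [(h m hm).2, card_torsion_pic0 N hm]

end Fermat.Agent.H23.EsA

end
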