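/-
P-ES / ES-A (helper23): two more statement-Props of auxiliary (Mathlib-only) lemmas, used by the
assembly of `PlacesStatement`.  Interfaces only.
-/
import Fermat.Agent.H23.EsA.Lemmas

set_option autoImplicit false

noncomputable section

open AlgebraicCurve UpperHalfPlane IntermediateField
open scoped MatrixGroups Manifold

namespace Fermat.Agent.H23.EsA

/-- **[ORD-MOEB]** the order of vanishing of a holomorphic function on `ℍ` is invariant under
the action of `SL(2,ℤ)`: `ord_{z₀} (h ∘ γ) = ord_{γ z₀} h`. -/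
def OrderMoebiusStatement : Prop :=
  ∀ (h : ℍ → ℂ), MDiff h → ∀ (γ : SL(2, ℤ)) (z₀ : ℍ),
    meromorphicOrderAt ((fun z => h (γ • z)) ∘ ofComplex) (z₀ : ℂ)
      = meromorphicOrderAt (h ∘ ofComplex) ((γ • z₀ : ℍ) : ℂ)

/-- **[CUSP-PER]** change of period at the cusp: a `w`-periodic holomorphic function of moderate
growth has a finite order `n` at `i∞` in the variable `exp (2πi z / w)`, and its order in the
variable `exp (2πi z / (w m))` is `m n`. -/
def CuspPeriodStatement : Prop :=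
  ∀ (w m : ℕ), 0 < w → 0 < m → ∀ H : ℍ → ℂ, MDiff H → H ≠ 0 →
    (∀ z : ℍ, H (ModularGroup.T ^ w • z) = H z) → GrowthAtInfty H →
    ∃ n : ℤ, cuspOrd w H = ((n : ℤ) : WithTop ℤ) ∧
      cuspOrd (w * m) H = (((m : ℤ) * n : ℤ) : WithTop ℤ)

/-- **[ORD-FIN]** a nonzero holomorphic function on `ℍ` has a finite, nonnegative order at every
point. -/
def OrderFiniteStatement : Prop :=
  ∀ (h : ℍ → ℂ), MDiff h → h ≠ 0 → ∀ z₀ : ℍ, ∃ n : ℕ,
    meromorphicOrderAt (h ∘ ofComplex) (z₀ : ℂ) = ((n : ℤ) : WithTop ℤ)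

end Fermat.Agent.H23.EsA

end
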