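/-
P-ES / ES-A (helper23): assembly of `PlacesStatement`, part 1: generic lemmas and the point
places (Pa).
-/
import Fermat.Agent.H23.EsA.Lemmas2
import Fermat.Agent.H23.RHAssembly
import Fermat.Agent.H49.InducedPlace
import Fermat.Agent.H61.GenAn2

set_option autoImplicit false

noncomputable section

open AlgebraicCurve UpperHalfPlane IntermediateField
open scoped MatrixGroups Manifold

namespace Fermat.Agent.H23.EsA

/-- Two places with proportional order functions are equal, with equal multipliers. -/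
theorem place_eq_of_proportional {K F : Type} [Field K] [Field F] [Algebra K F]
    (v v' : Place K F) (m m' : ℕ) (hm : 0 < m) (hm' : 0 < m')
    (h : ∀ f : F, f ≠ 0 → (m : ℤ) * v.ord f = (m' : ℤ) * v'.ord f) : m = m' ∧ v = v' := by
  have hvv : v = v' := by
    refine Fermat.Agent.H23.place_ext_of_ord v v' fun f hf => ?_
    by_cases hf0 : f = 0
    · subst hf0; simp [Place.ord_zero]
    · have h1 := h f hf0
      have h2 : (0 : ℤ) ≤ (m : ℤ) * v.ord f := by positivity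
      rw [h1] at h2
      have hm'' : (0 : ℤ) < (m' : ℤ) := by exact_mod_cast hm'
      exact nonneg_of_mul_nonneg_right h2 hm''
  refine ⟨?_, hvv⟩
  subst hvv
  obtain ⟨π, -, hπ⟩ := Fermat.Agent.H23.exists_irreducible_ord_one v
  have hπ0 : (π : F) ≠ 0 := by
    intro h0
    rw [h0, Place.ord_zero] at hπ
    exact zero_ne_one hπ
  have := h _ hπ0
  rw [hπ, mul_one, mul_one] at this
  exact_mod_cast this

variable (N : ℕ) [NeZero N]

/-- The order at a point of `ℍ` of a function representing a nonzero element is finite. -/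
theorem order_nat_of_formula {z₀ : ℍ} {h : ℍ → ℂ} (hh : MDiff h) {k : ℤ}
    (hk : meromorphicOrderAt (h ∘ ofComplex) (z₀ : ℂ) = ((k : ℤ) : WithTop ℤ)) :
    0 ≤ k := by
  have h1 := (Fermat.Agent.H61.analyticAt_comp_ofComplex hh z₀).meromorphicOrderAt_nonneg
  rw [hk] at h1
  exact_mod_cast h1

/-- The multiplier clause of `IsPointPlace` follows from the order formula. -/
theorem mult_clause (hcore : CoreCStatement N) (hrep : RsubRepStatement N)
    (z₀ : ℍ) (v : Place ℂ ↥(FC N)) (s : ℕ)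
    (hord : ∀ (f : ↥(FC N)) (h : ℍ → ℂ), f ≠ 0 → Rep N h f →
      meromorphicOrderAt (h ∘ ofComplex) (z₀ : ℂ) = (((s : ℤ) * v.ord f : ℤ) : WithTop ℤ)) :
    ∀ γ ∈ CongruenceSubgroup.Gamma0 N, γ • z₀ = z₀ → (denom γ z₀ ^ 2) ^ s = 1 := by
  intro γ hγ hfix
  obtain ⟨π, -, hπ⟩ := Fermat.Agent.H23.exists_irreducible_ord_one v
  have hπ0 : ((π : ↥(FC N))) ≠ 0 := by
    intro h0
    rw [h0, Place.ord_zero] at hπ
    exact zero_ne_one hπ
  obtain ⟨r, s₁, hr, hs₁, hs₁0, hrs⟩ := hcore.2 (π : ↥(FC N))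
  have hr0 : r ≠ 0 := by
    rw [← hrs]; exact mul_ne_zero hπ0 hs₁0
  obtain ⟨R, hR, hRmd, hRinv, -⟩ := hrep r hr
  obtain ⟨S, hS, hSmd, hSinv, -⟩ := hrep s₁ hs₁
  have h1 := hord r R hr0 hR
  have h2 := hord s₁ S hs₁0 hS
  have hn1 := order_nat_of_formula hRmd h1
  have hn2 := order_nat_of_formula hSmd h2
  have hvr : v.ord r = 1 + v.ord s₁ := by
    rw [← hrs, Place.ord_mul v hπ0 hs₁0, hπ]
  have e1 : (((s : ℤ) * v.ord r).toNat : ℤ) = (s : ℤ) * v.ord r := Int.toNat_of_nonneg hn1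
  have e2 : (((s : ℤ) * v.ord s₁).toNat : ℤ) = (s : ℤ) * v.ord s₁ := Int.toNat_of_nonneg hn2
  have k1 := Fermat.Agent.H61.denom_sq_pow_eq_one hRmd γ z₀ hfix (fun z => hRinv γ hγ z)
    ((s : ℤ) * v.ord r).toNat (by rw [h1, ← e1]; rfl)
  have k2 := Fermat.Agent.H61.denom_sq_pow_eq_one hSmd γ z₀ hfix (fun z => hSinv γ hγ z)
    ((s : ℤ) * v.ord s₁).toNat (by rw [h2, ← e2]; rfl)
  have e3 : ((s : ℤ) * v.ord r).toNat = s + ((s : ℤ) * v.ord s₁).toNat := by
    have : (((s : ℤ) * v.ord r).toNat : ℤ) = ((s + ((s : ℤ) * v.ord s₁).toNat : ℕ) : ℤ) := by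
      rw [Nat.cast_add, e1, e2, hvr]; ring
    exact_mod_cast this
  rw [e3, pow_add, k2, mul_one] at k1
  exact k1

/-- The function `z ↦ j(z) - j(z₀)` represents `j - j(z₀)`. -/
theorem rep_j_sub (hcore : CoreCStatement N) (a : ℂ) :
    Rep N (fun z => jfun (scaleH 1 z) + -a)
      (jC N 1 (one_dvd N) - algebraMap ℂ ↥(FC N) a) := by
  have h1 := hcore.1 1 inferInstance (one_dvd N)
  have h2 := Fermat.Agent.H44.laurentRel_const (-a)
  have h3 := Fermat.Agent.H44.LaurentRel.add h1 h2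
  unfold Rep
  have e : ((jC N 1 (one_dvd N) - algebraMap ℂ ↥(FC N) a : ↥(FC N)) : LaurentSeries ℂ)
      = ((jC N 1 (one_dvd N) : ↥(FC N)) : LaurentSeries ℂ) + HahnSeries.C (-a) := by
    have h : ((algebraMap ℂ ↥(FC N) a : ↥(FC N)) : LaurentSeries ℂ)
        = algebraMap ℂ (LaurentSeries ℂ) a := rfl
    push_cast
    rw [ModularCurve.algebraMap_laurentSeries_eq_single, map_neg, sub_eq_add_neg]
    rfl
  rw [e]
  exact h3

end Fermat.Agent.H23.EsA

end
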