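/-
P-ES / ES-A (helper23): assembly of `PlacesStatement`, part 2: the places induced by a coset
datum (generic), from refined local counting.
-/
import Fermat.Agent.H23.EsA.PlacesA
import Fermat.Agent.H29.FundamentalIdentity
import Fermat.Agent.H85.LocalCounting

set_option autoImplicit false

noncomputable section

open AlgebraicCurve UpperHalfPlane IntermediateField
open scoped MatrixGroups Manifold

namespace Fermat.Agent.H23.EsA

section Generic

variable {K F : Type} [Field K] [Field F] [Algebra K F]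
  {Γ : Subgroup SL(2, ℤ)}

/-- The `n`-th power of the permutation of the cosets induced by `g` fixes the coset of `γ` iff
`γ⁻¹ gⁿ γ ∈ Γ`. -/
theorem toPerm_pow_fix_iff (g γ : SL(2, ℤ)) (n : ℕ) :
    ((MulAction.toPerm g : Equiv.Perm (SL(2, ℤ) ⧸ Γ)) ^ n) (QuotientGroup.mk γ)
        = QuotientGroup.mk γ ↔ γ⁻¹ * g ^ n * γ ∈ Γ := by
  have h1 : ((MulAction.toPerm g : Equiv.Perm (SL(2, ℤ) ⧸ Γ)) ^ n)
      = MulAction.toPerm (g ^ n) := by
    rw [← MulAction.toPermHom_apply, ← map_pow]; rfl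
  rw [h1]
  have h2 : (MulAction.toPerm (g ^ n) : Equiv.Perm (SL(2, ℤ) ⧸ Γ)) (QuotientGroup.mk γ)
      = QuotientGroup.mk (g ^ n * γ) := rfl
  rw [h2, QuotientGroup.eq]
  constructor
  · intro h
    have h3 := Γ.inv_mem h
    simpa [mul_assoc] using h3
  · intro h
    have h3 := Γ.inv_mem h
    simpa [mul_assoc] using h3

/-- Integer version. -/
theorem conj_zpow_mem_iff (g γ : SL(2, ℤ)) (w : ℕ)
    (h : ∀ n : ℕ, γ⁻¹ * g ^ n * γ ∈ Γ ↔ (w : ℤ) ∣ (n : ℤ)) (k : ℤ) :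
    γ⁻¹ * g ^ k * γ ∈ Γ ↔ (w : ℤ) ∣ k := by
  rcases Int.natAbs_eq k with hk | hk
  · rw [hk, zpow_natCast]
    exact h _
  · have e : γ⁻¹ * g ^ k * γ = (γ⁻¹ * g ^ k.natAbs * γ)⁻¹ := by
      conv_lhs => rw [hk]
      rw [zpow_neg, zpow_natCast]
      group
    rw [e, Γ.inv_mem_iff, h, hk]
    simp

/-- The bundle of properties relating an index `γ`, the place `v` it induces, the multiplier
`m` and the ramification index `w`. -/
def CosetPlace {y : F} {g : SL(2, ℤ)} {e₀ : ℕ} (A : CosetDatum K F Γ y g e₀)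
    (γ : SL(2, ℤ)) (v : Place K F) (m w : ℕ) : Prop :=
  0 < m ∧ 0 < w ∧ v.ord y = (w : ℤ) ∧ m * w = e₀ ∧
    (∀ f : F, f ≠ 0 → A.val (A.σ γ f) = (((m : ℤ) * v.ord f : ℤ) : WithTop ℤ)) ∧
    (∀ k : ℤ, γ⁻¹ * g ^ k * γ ∈ Γ ↔ (w : ℤ) ∣ k)

variable [IsAlgClosed K] [CharZero K]

theorem exists_cosetPlace (hLCR : LocalCountingRefinedStatement)
    [Fintype (SL(2, ℤ) ⧸ Γ)] {y : F} {g : SL(2, ℤ)} {e₀ : ℕ}
    (A : CosetDatum K F Γ y g e₀) (he : 0 < e₀)
    (hy : Transcendental K y) (hfd : FiniteDimensional K⟮y⟯ F)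
    (hcard : Module.finrank K⟮y⟯ F = Fintype.card (SL(2, ℤ) ⧸ Γ)) (γ : SL(2, ℤ)) :
    ∃ (v : Place K F) (m w : ℕ), CosetPlace A γ v m w := by
  obtain ⟨hdeg, hVfin, hsum⟩ := Fermat.Agent.H29.fundamentalIdentity K F y hy hfd
  rw [hcard] at hsum
  obtain ⟨v, m, hvy, hm, hσ, hmw, hε⟩ :=
    hLCR K F y (A.toLocalDatum he) hdeg hVfin hsum (QuotientGroup.mk γ)
  refine ⟨v, m, (v.ord y).toNat, hm, ?_, ?_, ?_, ?_, ?_⟩
  · omega
  · omega
  · have h1 : ((v.ord y).toNat : ℤ) = v.ord y := Int.toNat_of_nonneg hvy.le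
    have h2 : (((m * (v.ord y).toNat : ℕ)) : ℤ) = (e₀ : ℤ) := by
      rw [Nat.cast_mul, h1]; exact hmw
    exact_mod_cast h2
  · intro f hf
    exact hσ f hf
  · have h1 : ((v.ord y).toNat : ℤ) = v.ord y := Int.toNat_of_nonneg hvy.le
    refine conj_zpow_mem_iff g γ _ fun n => ?_
    rw [← toPerm_pow_fix_iff, h1]
    exact hε n

theorem exists_cosetPlace_of_place (hLCR : LocalCountingRefinedStatement)
    [Fintype (SL(2, ℤ) ⧸ Γ)] {y : F} {g : SL(2, ℤ)} {e₀ : ℕ}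
    (A : CosetDatum K F Γ y g e₀) (he : 0 < e₀)
    (hy : Transcendental K y) (hfd : FiniteDimensional K⟮y⟯ F)
    (hcard : Module.finrank K⟮y⟯ F = Fintype.card (SL(2, ℤ) ⧸ Γ))
    (v : Place K F) (hv : 0 < v.ord y) :
    ∃ (γ : SL(2, ℤ)) (m w : ℕ), CosetPlace A γ v m w := by
  obtain ⟨hdeg, hVfin, hsum⟩ := Fermat.Agent.H29.fundamentalIdentity K F y hy hfd
  rw [hcard] at hsum
  obtain ⟨hind, -⟩ :=
    Fermat.Agent.H85.localCounting K F y (A.toLocalDatum he) hdeg hVfin hsum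
  obtain ⟨i, m, hm, hσ⟩ := hind v hv
  obtain ⟨γ, rfl⟩ := QuotientGroup.mk_surjective i
  obtain ⟨v', m', w, hP⟩ := exists_cosetPlace hLCR A he hy hfd hcard γ
  obtain ⟨hm', hw, hvy, hmw, hσ', hk⟩ := hP
  have key : m = m' ∧ v = v' := by
    refine place_eq_of_proportional v v' m m' hm hm' fun f hf => ?_
    have h1 := hσ f hf
    have h2 := hσ' f hf
    have h3 : (A.toLocalDatum he).val ((A.toLocalDatum he).σ (QuotientGroup.mk γ) f)
        = A.val (A.σ γ f) := rfl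
    rw [h3, h2] at h1
    exact_mod_cast h1.symm
  obtain ⟨rfl, rfl⟩ := key
  exact ⟨γ, m, w, hm', hw, hvy, hmw, hσ', hk⟩

end Generic

end Fermat.Agent.H23.EsA

end
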