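/-
P-ES / ES-A (helper23): assembly of `PlacesStatement`, part 3: specialisation to the function
field of `X₀(N)` over `ℂ` and the final theorem `places_of_parts`.
-/
import Fermat.Agent.H23.EsA.PlacesB
import Fermat.Agent.H61.GenAn5

set_option autoImplicit false

noncomputable section

open AlgebraicCurve UpperHalfPlane IntermediateField
open scoped MatrixGroups Manifold

namespace Fermat.Agent.H23.EsA

/-- Cocycle relation for `SL(2,ℤ)`. -/
theorem denom_mul_SL (a b : SL(2, ℤ)) (z : ℍ) :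
    denom ((a * b : SL(2, ℤ)) : GL (Fin 2) ℝ) z = denom a ((b • z : ℍ) : ℂ) * denom b z := by
  have hcoe : ((a * b : SL(2, ℤ)) : GL (Fin 2) ℝ) = (a : GL (Fin 2) ℝ) * (b : GL (Fin 2) ℝ) := by
    simp only [map_mul]
  rw [hcoe, denom_cocycle _ _ z.im_ne_zero,
    ← coe_smul_of_det_pos (Fermat.Agent.H61.SL_det_pos' b) z]
  rfl

/-- The multiplier of a conjugate of a power of a stabiliser element. -/
theorem denom_conj_pow (γ g : SL(2, ℤ)) (z₀ : ℍ) (hg : g • z₀ = z₀) (n : ℕ) :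
    (γ⁻¹ * g ^ n * γ) • (γ⁻¹ • z₀) = γ⁻¹ • z₀ ∧
      denom ((γ⁻¹ * g ^ n * γ : SL(2, ℤ)) : GL (Fin 2) ℝ) ((γ⁻¹ • z₀ : ℍ) : ℂ)
        = denom g z₀ ^ n := by
  obtain ⟨hfix, hden⟩ := Fermat.Agent.H61.denom_pow_fixed g z₀ hg n
  have h1 : γ • (γ⁻¹ • z₀) = z₀ := by rw [← mul_smul, mul_inv_cancel, one_smul]
  have h2 : (g ^ n * γ) • (γ⁻¹ • z₀) = z₀ := by rw [mul_smul, h1, hfix]
  refine ⟨by rw [mul_assoc, mul_smul, h2], ?_⟩
  rw [mul_assoc, denom_mul_SL, h2, denom_mul_SL, h1, hden]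
  have h3 := denom_mul_SL γ⁻¹ γ (γ⁻¹ • z₀)
  rw [h1, inv_mul_cancel] at h3
  have h4 : denom ((1 : SL(2, ℤ)) : GL (Fin 2) ℝ) ((γ⁻¹ • z₀ : ℍ) : ℂ) = 1 := by
    simp [denom]
  rw [h4] at h3
  rw [← mul_assoc, mul_comm (denom (γ⁻¹ : SL(2, ℤ)) (z₀ : ℂ)), mul_assoc, ← h3, mul_one]

variable (N : ℕ) [NeZero N]

theorem finite_quot_of_degree (hdeg : DegreeCStatement N) :
    Finite (SL(2, ℤ) ⧸ CongruenceSubgroup.Gamma0 N) := by
  obtain ⟨-, hfd, hrank⟩ := hdeg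
  have hpos : 0 < Module.finrank ℂ⟮jC N 1 (one_dvd N)⟯ ↥(FC N) := Module.finrank_pos
  exact Nat.finite_of_card_ne_zero (by rw [← hrank]; exact hpos.ne')

omit [NeZero N] in
/-- A function representing a nonzero element is nonzero. -/
theorem rep_ne_zero {h : ℍ → ℂ} {f : ↥(FC N)} (hR : Rep N h f) (hf : f ≠ 0) : h ≠ 0 := by
  rintro rfl
  have h0 := Fermat.Agent.H44.laurentRel_zero
  have := Fermat.Agent.H44.LaurentRel.unique_right hR h0
  exact hf (Subtype.ext this)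

/-- (Pa) every point of `ℍ` has a place. -/
theorem places_point (hcore : CoreCStatement N) (hrep : RsubRepStatement N)
    (hdeg : DegreeCStatement N) (hemb : PointEmbeddingStatement N) (z₀ : ℍ) :
    ∃ v s, IsPointPlace N z₀ v s := by
  obtain ⟨M, instM, val, σ, hconst, hval⟩ := hemb z₀
  set a : ℂ := jfun (scaleH 1 z₀) with ha
  have hy0 : jC N 1 (one_dvd N) - algebraMap ℂ ↥(FC N) a ≠ 0 := by
    intro h0
    apply Fermat.Agent.H23.transcendental_sub_const hdeg.1 a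
    rw [h0]
    exact isAlgebraic_zero
  have hR := rep_j_sub N hcore a
  have hv := hval _ _ hy0 hR
  have hmd : MDiff (fun z => jfun (scaleH 1 z) + -a) :=
    Fermat.Agent.H44.LaurentRel.mdifferentiable hR
  have han := Fermat.Agent.H61.analyticAt_comp_ofComplex hmd z₀
  have hne : val (σ (jC N 1 (one_dvd N) - algebraMap ℂ ↥(FC N) a)) ≠ 0 := by
    rw [hv, han.meromorphicOrderAt_eq]
    intro h0
    have h1 : analyticOrderAt ((fun z => jfun (scaleH 1 z) + -a) ∘ ofComplex) (z₀ : ℂ) = 0 := by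
      cases h : analyticOrderAt ((fun z => jfun (scaleH 1 z) + -a) ∘ ofComplex) (z₀ : ℂ) with
      | top => rw [h] at h0; simp at h0
      | coe n =>
        rw [h] at h0
        have : ((n : ℤ) : WithTop ℤ) = 0 := h0
        have hn : n = 0 := by exact_mod_cast this
        rw [hn]; rfl
    rw [han.analyticOrderAt_eq_zero] at h1
    apply h1
    simp [ha]
  obtain ⟨v, m, hm, hσ⟩ := Fermat.Agent.H49.inducedPlace ℂ ↥(FC N) M val σ hconst ⟨_, hy0, hne⟩
  have hord : ∀ (f : ↥(FC N)) (h : ℍ → ℂ), f ≠ 0 → Rep N h f →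
      meromorphicOrderAt (h ∘ ofComplex) (z₀ : ℂ) = (((m : ℤ) * v.ord f : ℤ) : WithTop ℤ) :=
    fun f h hf hR => (hval f h hf hR).symm.trans (hσ f hf)
  exact ⟨v, m, hm, hord, mult_clause N hcore hrep z₀ v m hord⟩

/-- The cusp place attached to a coset. -/
theorem isCuspPlace_of_cosetPlace (hreg : RepRegularStatement N) (hper : CuspPeriodStatement)
    (A : CosetDatum ℂ ↥(FC N) (CongruenceSubgroup.Gamma0 N)
      (jC N 1 (one_dvd N))⁻¹ ModularGroup.T N)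
    (hA : ∀ (γ : SL(2, ℤ)) (f : ↥(FC N)) (h : ℍ → ℂ), f ≠ 0 → Rep N h f →
      A.val (A.σ γ f) = cuspOrd N (fun z => h (γ⁻¹ • z)))
    (γ : SL(2, ℤ)) (v : Place ℂ ↥(FC N)) (m w : ℕ) (hP : CosetPlace A γ v m w) :
    IsCuspPlace N γ⁻¹ v w := by
  obtain ⟨hm, hw, hvy, hmw, hσ, hk⟩ := hP
  refine ⟨hw, fun k => ?_, fun f h hf hR => ?_⟩
  · rw [inv_inv]; exact hk k
  · obtain ⟨hinv, hgrow⟩ := hreg f h hR
    have hmd : MDiff h := Fermat.Agent.H44.LaurentRel.mdifferentiable hR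
    have hHmd : MDiff (fun z => h (γ⁻¹ • z)) := hmd.comp (Fermat.Agent.H61.mdiff_smul_SL γ⁻¹)
    have hH0 : (fun z => h (γ⁻¹ • z)) ≠ 0 := by
      intro h0
      apply rep_ne_zero N hR hf
      funext z
      have := congrFun h0 (γ • z)
      simpa [← mul_smul] using this
    have hmem : γ⁻¹ * ModularGroup.T ^ w * γ ∈ CongruenceSubgroup.Gamma0 N := by
      have := (hk (w : ℤ)).mpr dvd_rfl
      rwa [zpow_natCast] at this
    have hHper : ∀ z : ℍ, (fun z => h (γ⁻¹ • z)) (ModularGroup.T ^ w • z)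
        = (fun z => h (γ⁻¹ • z)) z := by
      intro z
      have h1 := hinv _ hmem (γ⁻¹ • z)
      have h2 : (γ⁻¹ * ModularGroup.T ^ w * γ) • (γ⁻¹ • z) = γ⁻¹ • (ModularGroup.T ^ w • z) := by
        rw [← mul_smul, ← mul_smul]
        congr 1
        group
      rw [h2] at h1
      exact h1
    have hHgrow : GrowthAtInfty (fun z => h (γ⁻¹ • z)) := hgrow γ⁻¹
    obtain ⟨n, hn1, hn2⟩ := hper w m hw hm _ hHmd hH0 hHper hHgrow
    have h3 := hA γ f h hf hR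
    rw [hσ f hf] at h3
    have h4 : w * m = N := by rw [mul_comm]; exact hmw
    rw [h4, ← h3] at hn2
    have h5 : (m : ℤ) * v.ord f = (m : ℤ) * n := by exact_mod_cast hn2
    have hm' : (m : ℤ) ≠ 0 := by exact_mod_cast hm.ne'
    rw [hn1, mul_left_cancel₀ hm' h5]

/-- The point place attached to a coset. -/
theorem isPointPlaceStrong_of_cosetPlace (hcore : CoreCStatement N) (hrep : RsubRepStatement N)
    (hmoeb : OrderMoebiusStatement) (a : ℂ) (z₀ : ℍ) (g : SL(2, ℤ)) (e₀ : ℕ)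
    (A : CosetDatum ℂ ↥(FC N) (CongruenceSubgroup.Gamma0 N)
      (jC N 1 (one_dvd N) - algebraMap ℂ ↥(FC N) a) g e₀)
    (hfix : g • z₀ = z₀) (hprim : IsPrimitiveRoot (denom g z₀ ^ 2) e₀)
    (hA : ∀ (γ : SL(2, ℤ)) (f : ↥(FC N)) (h : ℍ → ℂ), f ≠ 0 → Rep N h f →
      A.val (A.σ γ f) = meromorphicOrderAt ((fun z => h (γ⁻¹ • z)) ∘ ofComplex) (z₀ : ℂ))
    (γ : SL(2, ℤ)) (v : Place ℂ ↥(FC N)) (m w : ℕ) (hP : CosetPlace A γ v m w) :
    IsPointPlaceStrong N (γ⁻¹ • z₀) v m := by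
  obtain ⟨hm, hw, hvy, hmw, hσ, hk⟩ := hP
  have hord : ∀ (f : ↥(FC N)) (h : ℍ → ℂ), f ≠ 0 → Rep N h f →
      meromorphicOrderAt (h ∘ ofComplex) ((γ⁻¹ • z₀ : ℍ) : ℂ)
        = (((m : ℤ) * v.ord f : ℤ) : WithTop ℤ) := by
    intro f h hf hR
    have hmd : MDiff h := Fermat.Agent.H44.LaurentRel.mdifferentiable hR
    rw [← hmoeb h hmd γ⁻¹ z₀, ← hA γ f h hf hR, hσ f hf]
  refine ⟨⟨hm, hord, mult_clause N hcore hrep _ v m hord⟩, fun k hkk => ?_⟩
  have hmem : γ⁻¹ * g ^ w * γ ∈ CongruenceSubgroup.Gamma0 N := by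
    have := (hk (w : ℤ)).mpr dvd_rfl
    rwa [zpow_natCast] at this
  obtain ⟨hβfix, hβden⟩ := denom_conj_pow γ g z₀ hfix w
  have h1 := hkk _ hmem hβfix
  rw [hβden] at h1
  have h2 : (denom g z₀ ^ 2) ^ ((w : ℤ) * k) = 1 := by
    rw [zpow_mul, zpow_natCast, ← pow_mul, mul_comm 2 w, pow_mul]
    exact h1
  have h3 := (hprim.zpow_eq_one_iff_dvd _).mp h2
  have h4 : ((m * w : ℕ) : ℤ) ∣ (w : ℤ) * k := by rw [hmw]; exact h3
  rw [Nat.cast_mul, mul_comm (m : ℤ)] at h4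
  exact (mul_dvd_mul_iff_left (by exact_mod_cast hw.ne')).mp h4

/-- **[PLACES]** assembly. -/
theorem places_of_parts (hcore : CoreCStatement N) (hrep : RsubRepStatement N)
    (hreg : RepRegularStatement N) (hdeg : DegreeCStatement N)
    (hemb : PointEmbeddingStatement N) (hpt : PointDatumStatement N)
    (hcusp : CuspDatumStatement N) (hLCR : LocalCountingRefinedStatement)
    (hmoeb : OrderMoebiusStatement) (hper : CuspPeriodStatement) : PlacesStatement N := by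
  classical
  have hfin := finite_quot_of_degree N hdeg
  let _ : Fintype (SL(2, ℤ) ⧸ CongruenceSubgroup.Gamma0 N) := Fintype.ofFinite _
  obtain ⟨htr, hfd, hrank⟩ := hdeg
  have hrankF : Module.finrank ℂ⟮jC N 1 (one_dvd N)⟯ ↥(FC N)
      = Fintype.card (SL(2, ℤ) ⧸ CongruenceSubgroup.Gamma0 N) := by
    rw [hrank, Nat.card_eq_fintype_card]
  -- data at the cusp
  obtain ⟨Ac, hAc⟩ := hcusp
  have hNpos : 0 < N := Nat.pos_of_ne_zero (NeZero.ne N)
  have htr_inf := Fermat.Agent.H23.transcendental_inv htr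
  have hadj_inf := Fermat.Agent.H23.adjoin_inv (K := ℂ) (jC N 1 (one_dvd N))
  have hfd_inf : FiniteDimensional ℂ⟮(jC N 1 (one_dvd N))⁻¹⟯ ↥(FC N) := by
    rw [hadj_inf]; exact hfd
  have hrank_inf : Module.finrank ℂ⟮(jC N 1 (one_dvd N))⁻¹⟯ ↥(FC N)
      = Fintype.card (SL(2, ℤ) ⧸ CongruenceSubgroup.Gamma0 N) := by
    rw [hadj_inf]; exact hrankF
  have hdeg1 : ∀ v : Place ℂ ↥(FC N), v.deg = 1 :=
    (Fermat.Agent.H29.fundamentalIdentity ℂ ↥(FC N) _ htr hfd).1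
  refine ⟨fun z₀ => places_point N hcore hrep ⟨htr, hfd, hrank⟩ hemb z₀, fun δ => ?_, fun v => ?_⟩
  · obtain ⟨v, m, w, hP⟩ := exists_cosetPlace hLCR Ac hNpos htr_inf hfd_inf hrank_inf δ⁻¹
    have := isCuspPlace_of_cosetPlace N hreg hper Ac hAc δ⁻¹ v m w hP
    rw [inv_inv] at this
    exact ⟨v, w, this⟩
  · rcases Fermat.Agent.H23.exists_point hdeg1 htr v with hinf | ⟨a, ha⟩
    · right
      obtain ⟨γ, m, w, hP⟩ :=
        exists_cosetPlace_of_place hLCR Ac hNpos htr_inf hfd_inf hrank_inf v hinf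
      exact ⟨γ⁻¹, w, isCuspPlace_of_cosetPlace N hreg hper Ac hAc γ v m w hP⟩
    · left
      obtain ⟨z₀, g, e₀, A, he, -, hfix, hprim, hA⟩ := hpt a
      have htr_a := Fermat.Agent.H23.transcendental_sub_const htr a
      have hadj_a := Fermat.Agent.H23.adjoin_sub_const (K := ℂ) (jC N 1 (one_dvd N)) a
      have hfd_a : FiniteDimensional
          ℂ⟮jC N 1 (one_dvd N) - algebraMap ℂ ↥(FC N) a⟯ ↥(FC N) := by
        rw [hadj_a]; exact hfd
      have hrank_a : Module.finrank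
          ℂ⟮jC N 1 (one_dvd N) - algebraMap ℂ ↥(FC N) a⟯ ↥(FC N)
          = Fintype.card (SL(2, ℤ) ⧸ CongruenceSubgroup.Gamma0 N) := by
        rw [hadj_a]; exact hrankF
      obtain ⟨γ, m, w, hP⟩ :=
        exists_cosetPlace_of_place hLCR A he htr_a hfd_a hrank_a v ha
      exact ⟨γ⁻¹ • z₀, m,
        isPointPlaceStrong_of_cosetPlace N hcore hrep hmoeb a z₀ g e₀ A hfix hprim hA γ v m w hP⟩

end Fermat.Agent.H23.EsA

end
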