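/-
P-ES / ES-A (helper23): the final Pic⁰ form, part 1: divisor bookkeeping.
-/
import Fermat.Agent.H23.EsA.Lemmas2
import Fermat.Agent.H94.EsA.AssemblyMap

set_option autoImplicit false

noncomputable section

open AlgebraicCurve UpperHalfPlane IntermediateField
open scoped MatrixGroups Manifold

namespace Fermat.Agent.H23.EsA

section Generic

variable {K F : Type} [Field K] [Field F] [Algebra K F]

/-- Equality of classes in `Pic⁰`. -/
theorem pic0_mk_eq_iff (D D' : Divisor.degZero (K := K) (F := F)) :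
    Pic0.mk D = Pic0.mk D' ↔
      ∃ t : F, t ≠ 0 ∧ ∀ v : Place K F,
        (D' : Divisor K F) v - (D : Divisor K F) v = v.ord t := by
  unfold Pic0.mk
  rw [QuotientAddGroup.eq, AddSubgroup.mem_addSubgroupOf, Divisor.mem_principal]
  constructor
  · rintro ⟨t, ht, h⟩
    refine ⟨t, ht, fun v => ?_⟩
    rw [← h v]
    simp [sub_eq_neg_add]
  · rintro ⟨t, ht, h⟩
    refine ⟨t, ht, fun v => ?_⟩
    rw [← h v]
    simp [sub_eq_neg_add]

/-- A class in `Pic⁰` is zero iff the divisor is principal. -/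
theorem pic0_mk_eq_zero_iff (D : Divisor.degZero (K := K) (F := F)) :
    Pic0.mk D = 0 ↔ ∃ t : F, t ≠ 0 ∧ ∀ v : Place K F, (D : Divisor K F) v = v.ord t := by
  unfold Pic0.mk
  rw [QuotientAddGroup.eq_zero_iff, AddSubgroup.mem_addSubgroupOf, Divisor.mem_principal]
  rfl

/-- Torsion classes. -/
theorem pic0_mk_mem_torsion_iff (m : ℕ) (D : Divisor.degZero (K := K) (F := F)) :
    Pic0.mk D ∈ Pic0.torsion K F m ↔
      ∃ f : F, f ≠ 0 ∧ ∀ v : Place K F, v.ord f = (m : ℤ) * (D : Divisor K F) v := by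
  rw [Pic0.mem_torsion]
  have h1 : ((m : ℤ) • Pic0.mk D : Pic0 K F) = Pic0.mk ((m : ℤ) • D) := rfl
  rw [h1, pic0_mk_eq_zero_iff]
  constructor
  · rintro ⟨f, hf, h⟩
    refine ⟨f, hf, fun v => ?_⟩
    rw [← h v]
    simp
  · rintro ⟨f, hf, h⟩
    refine ⟨f, hf, fun v => ?_⟩
    rw [h v]
    simp

/-- Division of a divisor by `m`. -/
def divisorDiv (m : ℕ) (D : Divisor K F) : Divisor K F :=
  Finsupp.mapRange (fun n : ℤ => n / (m : ℤ)) (by simp) D

theorem divisorDiv_apply (m : ℕ) (D : Divisor K F) (v : Place K F) :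
    divisorDiv m D v = D v / (m : ℤ) := by
  simp [divisorDiv]

theorem degree_divisorDiv {m : ℕ} (hm : 0 < m) {D : Divisor K F}
    (hdvd : ∀ v, (m : ℤ) ∣ D v) (hdeg : Divisor.degree D = 0) :
    Divisor.degree (divisorDiv m D) = 0 := by
  have h1 : (m : ℤ) • divisorDiv m D = D := by
    ext v
    rw [Finsupp.smul_apply, divisorDiv_apply, smul_eq_mul]
    exact Int.mul_ediv_cancel' (hdvd v)
  have h2 : (m : ℤ) • Divisor.degree (divisorDiv m D) = 0 := by
    rw [← map_zsmul, h1, hdeg]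
  rw [smul_eq_mul] at h2
  rcases mul_eq_zero.mp h2 with h | h
  · exact absurd h (by exact_mod_cast hm.ne')
  · exact h

end Generic

end Fermat.Agent.H23.EsA

end
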