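/-
P-ES / ES-A (helper23): the final Pic⁰ form, part 2: `TorsionCharStatement` from the Kummer
statements of `Fermat.Agent.H94.EsA`.
-/
import Fermat.Agent.H23.EsA.FinalA

set_option autoImplicit false

noncomputable section

open AlgebraicCurve UpperHalfPlane IntermediateField
open scoped MatrixGroups Manifold

namespace Fermat.Agent.H23.EsA

variable {N : ℕ} [NeZero N] {m : ℕ}

omit [NeZero N] in
/-- The torsion–character relation in terms of Kummer characters. -/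
theorem torsionCharRel_iff (x : Pic0 ℂ ↥(FC N))
    (χ : ↥(CongruenceSubgroup.Gamma0 N) →* ℂˣ) :
    TorsionCharRel N m x χ ↔
      ∃ (D : Divisor.degZero (K := ℂ) (F := ↥(FC N))) (f : ↥(FC N)),
        Pic0.mk D = x ∧ f ≠ 0 ∧
        (∀ v : Place ℂ ↥(FC N), v.ord f = (m : ℤ) * (D : Divisor ℂ ↥(FC N)) v) ∧
        Fermat.Agent.H94.EsA.IsKummerCharOf N m (f : LaurentSeries ℂ) χ := by
  constructor
  · rintro ⟨D, f, G, h1, h2, h3, h4, h5, h6⟩
    exact ⟨D, f, h1, h2, h3, G, h4, h5, h6⟩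
  · rintro ⟨D, f, h1, h2, h3, G, h4, h5, h6⟩
    exact ⟨D, f, G, h1, h2, h3, h4, h5, h6⟩

omit [NeZero N] in
/-- A function with a Kummer character is holomorphic. -/
theorem isHol_of_isKummerCharOf {f : LaurentSeries ℂ}
    {χ : ↥(CongruenceSubgroup.Gamma0 N) →* ℂˣ}
    (h : Fermat.Agent.H94.EsA.IsKummerCharOf N m f χ) : Fermat.Agent.H94.EsA.IsHol f := by
  obtain ⟨G, -, hG, -⟩ := h
  exact ⟨G ^ m, hG⟩

omit [NeZero N] in
theorem ord_pow_nat (v : Place ℂ ↥(FC N)) (s : ↥(FC N)) (k : ℕ) :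
    v.ord (s ^ k) = (k : ℤ) * v.ord s := by
  have := v.ord_zpow s (k : ℤ)
  rwa [zpow_natCast] at this

/-- **[A-FWD]** -/
theorem forward_of_kummer (hPD : PrincipalDivisorCStatement N)
    (hHOL : Fermat.Agent.H94.EsA.HolRepStatement N)
    (hEX : Fermat.Agent.H94.EsA.KummerExistsStatement N) : ForwardStatement N := by
  intro m hm x hx
  obtain ⟨D₀, rfl⟩ := Pic0.mk_surjective x
  obtain ⟨f₀, hf₀, hord₀⟩ := (pic0_mk_mem_torsion_iff m D₀).mp hx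
  obtain ⟨s, hs0, hhol⟩ := hHOL m hm f₀ hf₀
  obtain ⟨E, hE, hEdeg⟩ := hPD.1.exists_divisor s hs0
  have hf0 : f₀ * s ^ m ≠ 0 := mul_ne_zero hf₀ (pow_ne_zero _ hs0)
  have hordf : ∀ v : Place ℂ ↥(FC N),
      v.ord (f₀ * s ^ m) = (m : ℤ) * ((D₀ : Divisor ℂ ↥(FC N)) v + E v) := by
    intro v
    rw [Place.ord_mul v hf₀ (pow_ne_zero _ hs0), hord₀ v, ord_pow_nat, hE v]
    ring
  obtain ⟨χ, -, hχ⟩ := hEX m hm (f₀ * s ^ m)
    ⟨hf0, fun P => ⟨_, hordf P⟩⟩ hhol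
  refine ⟨χ, (torsionCharRel_iff _ _).mpr ?_⟩
  refine ⟨D₀ + ⟨E, Divisor.mem_degZero.mpr hEdeg⟩, f₀ * s ^ m, ?_, hf0, ?_, hχ⟩
  · rw [eq_comm, pic0_mk_eq_iff]
    refine ⟨s, hs0, fun v => ?_⟩
    rw [← hE v]
    simp
  · intro v
    rw [hordf v]
    simp

/-- Two functions with divisors `m D`, `m D'` for equivalent `D`, `D'` differ by an `m`-th
power. -/
theorem exists_pow_of_equiv (hm : 0 < m) (hPD : PrincipalDivisorCStatement N)
    {D D' : Divisor.degZero (K := ℂ) (F := ↥(FC N))} {f f' : ↥(FC N)}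
    (hDD' : Pic0.mk D = Pic0.mk D') (hf : f ≠ 0) (hf' : f' ≠ 0)
    (hord : ∀ v : Place ℂ ↥(FC N), v.ord f = (m : ℤ) * (D : Divisor ℂ ↥(FC N)) v)
    (hord' : ∀ v : Place ℂ ↥(FC N), v.ord f' = (m : ℤ) * (D' : Divisor ℂ ↥(FC N)) v) :
    ∃ t : ↥(FC N), t ≠ 0 ∧ f' = f * t ^ m := by
  obtain ⟨t, ht, hDt⟩ := (pic0_mk_eq_iff D D').mp hDD'
  have hq0 : f' * (f * t ^ m)⁻¹ ≠ 0 :=
    mul_ne_zero hf' (inv_ne_zero (mul_ne_zero hf (pow_ne_zero _ ht)))
  have hq : ∀ v : Place ℂ ↥(FC N), v.ord (f' * (f * t ^ m)⁻¹) = 0 := by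
    intro v
    rw [Place.ord_mul v hf' (inv_ne_zero (mul_ne_zero hf (pow_ne_zero _ ht))),
      Place.ord_inv, Place.ord_mul v hf (pow_ne_zero _ ht), ord_pow_nat, hord v, hord' v,
      ← hDt v]
    ring
  obtain ⟨c, hc⟩ := hPD.2 _ hq0 hq
  have hc0 : c ≠ 0 := by
    rintro rfl
    rw [map_zero] at hc
    exact hq0 hc
  obtain ⟨c₀, hc₀⟩ := IsAlgClosed.exists_pow_nat_eq c hm
  have hc₀0 : c₀ ≠ 0 := by
    rintro rfl
    rw [zero_pow hm.ne'] at hc₀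
    exact hc0 hc₀.symm
  refine ⟨algebraMap ℂ ↥(FC N) c₀ * t, mul_ne_zero ?_ ht, ?_⟩
  · rw [Ne, map_eq_zero]; exact hc₀0
  · rw [mul_pow, ← map_pow, hc₀, ← hc]
    field_simp

/-- **[A-UNIQ]** -/
theorem unique_of_kummer (hPD : PrincipalDivisorCStatement N)
    (hFRAC : Fermat.Agent.H94.EsA.FracHolStatement N)
    (hGROW : Fermat.Agent.H94.EsA.InvariantGrowthStatement N)
    (hUNIQ : Fermat.Agent.H94.EsA.KummerUniqueStatement N) : UniqueStatement N := by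
  intro m hm x χ χ' h h'
  obtain ⟨D, f, hD, hf, hord, hχ⟩ := (torsionCharRel_iff _ _).mp h
  obtain ⟨D', f', hD', hf', hord', hχ'⟩ := (torsionCharRel_iff _ _).mp h'
  obtain ⟨t, ht, hff'⟩ := exists_pow_of_equiv hm hPD (hD.trans hD'.symm) hf hf' hord hord'
  exact Fermat.Agent.H94.EsA.kummerChar_indep hm hFRAC hGROW hUNIQ hf ht hff' hχ hχ'

/-- **[A-ADM]** -/
theorem admissible_of_kummer (hEX : Fermat.Agent.H94.EsA.KummerExistsStatement N)
    (hUNIQ : Fermat.Agent.H94.EsA.KummerUniqueStatement N) : AdmissibleStatement N := by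
  intro m hm x χ h
  obtain ⟨D, f, hD, hf, hord, hχ⟩ := (torsionCharRel_iff _ _).mp h
  refine ⟨?_, ?_⟩
  · rw [← hD]
    exact (pic0_mk_mem_torsion_iff m D).mpr ⟨f, hf, hord⟩
  · obtain ⟨χ', hχ'mem, hχ'⟩ := hEX m hm f ⟨hf, fun P => ⟨_, hord P⟩⟩
      (isHol_of_isKummerCharOf hχ)
    have := hUNIQ m hm _ (Fermat.Agent.H94.EsA.coe_ne_zero hf) χ χ' hχ hχ'
    subst this
    exact ⟨hχ'mem.2, (Fermat.Agent.H94.EsA.isParEllTrivial_iff χ).mp hχ'mem.1⟩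

/-- **[A-ADD]** -/
theorem additive_holds (N : ℕ) [NeZero N] : AdditiveStatement N := by
  rintro m hm x x' χ χ' ⟨D, f, G, h1, h2, h3, h4, h5, h6⟩ ⟨D', f', G', h1', h2', h3', h4', h5', h6'⟩
  refine ⟨D + D', f * f', G * G', ?_, mul_ne_zero h2 h2', ?_, h4.mul h4', ?_, ?_⟩
  · rw [Pic0.mk_add, h1, h1']
  · intro v
    rw [Place.ord_mul v h2 h2', h3 v, h3' v]
    simp [mul_add]
  · unfold Rep at h5 h5' ⊢
    rw [mul_pow]
    exact h5.mul h5'
  · intro γ z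
    rw [Pi.mul_apply, Pi.mul_apply, h6 γ z, h6' γ z, MonoidHom.mul_apply, Units.val_mul]
    ring

/-- **[A-INJ]** -/
theorem injective_of_kummer (hKER : Fermat.Agent.H94.EsA.KummerKernelStatement N) :
    InjectiveStatement N := by
  intro m hm x h
  obtain ⟨D, f, hD, hf, hord, hχ⟩ := (torsionCharRel_iff _ _).mp h
  obtain ⟨y, hy⟩ := hKER m hm f hf hχ
  have hy0 : y ≠ 0 := by
    rintro rfl
    rw [zero_pow hm.ne'] at hy
    exact hf hy.symm
  rw [← hD, pic0_mk_eq_zero_iff]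
  refine ⟨y, hy0, fun v => ?_⟩
  have h1 := hord v
  rw [← hy, ord_pow_nat] at h1
  have hm' : (m : ℤ) ≠ 0 := by exact_mod_cast hm.ne'
  exact (mul_left_cancel₀ hm' h1).symm

/-- **[A-SURJ]** -/
theorem surjective_of_kummer (hPD : PrincipalDivisorCStatement N)
    (hSURJ : Fermat.Agent.H94.EsA.KummerSurjStatement N) : SurjectiveStatement N := by
  intro m hm χ hχm hχpe
  obtain ⟨f, ⟨hf, hdiv⟩, hχ⟩ := hSURJ m hm χ
    ⟨(Fermat.Agent.H94.EsA.isParEllTrivial_iff χ).mpr hχpe, hχm⟩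
  obtain ⟨E, hE, hEdeg⟩ := hPD.1.exists_divisor f hf
  have hEdvd : ∀ v, (m : ℤ) ∣ E v := fun v => by rw [hE v]; exact hdiv v
  refine ⟨Pic0.mk ⟨divisorDiv m E, Divisor.mem_degZero.mpr (degree_divisorDiv hm hEdvd hEdeg)⟩,
    (torsionCharRel_iff _ _).mpr ⟨_, f, rfl, hf, fun v => ?_, hχ⟩⟩
  show v.ord f = (m : ℤ) * divisorDiv m E v
  rw [divisorDiv_apply, Int.mul_ediv_cancel' (hEdvd v), hE v]

/-- **ES-A, final Pic⁰ form**, from the Kummer statements. -/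
theorem torsionChar_of_kummer (N : ℕ) [NeZero N] (hPD : PrincipalDivisorCStatement N)
    (hFRAC : Fermat.Agent.H94.EsA.FracHolStatement N)
    (hGROW : Fermat.Agent.H94.EsA.InvariantGrowthStatement N)
    (hEX : Fermat.Agent.H94.EsA.KummerExistsStatement N)
    (hUNIQ : Fermat.Agent.H94.EsA.KummerUniqueStatement N)
    (hKER : Fermat.Agent.H94.EsA.KummerKernelStatement N)
    (hSURJ : Fermat.Agent.H94.EsA.KummerSurjStatement N) : TorsionCharStatement N :=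
  torsionChar_of_parts N
    (forward_of_kummer hPD (Fermat.Agent.H94.EsA.holRep_of_fracHol N hFRAC) hEX)
    (unique_of_kummer hPD hFRAC hGROW hUNIQ)
    (admissible_of_kummer hEX hUNIQ)
    (additive_holds N)
    (injective_of_kummer hKER)
    (surjective_of_kummer hPD hSURJ)

end Fermat.Agent.H23.EsA

end
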