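/-
P-ES / ES-A (helper23): the final Pic⁰ form, part 3: the bijection
`Pic⁰(FC N)[m] ≃ kummerChars N m` and finiteness of the torsion.
-/
import Fermat.Agent.H23.EsA.FinalB

set_option autoImplicit false

noncomputable section

open AlgebraicCurve UpperHalfPlane IntermediateField
open scoped MatrixGroups Manifold

namespace Fermat.Agent.H23.EsA

variable {N : ℕ} [NeZero N] {m : ℕ}

omit [NeZero N] in
/-- Powers in the torsion–character relation. -/
theorem torsionCharRel_nsmul (hadd : ∀ x x' χ χ', TorsionCharRel N m x χ →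
      TorsionCharRel N m x' χ' → TorsionCharRel N m (x + x') (χ * χ'))
    {x : Pic0 ℂ ↥(FC N)} {χ : ↥(CongruenceSubgroup.Gamma0 N) →* ℂˣ}
    (h : TorsionCharRel N m x χ) (k : ℕ) :
    TorsionCharRel N m ((k + 1) • x) (χ ^ (k + 1)) := by
  induction k with
  | zero =>
    have e1 : (0 + 1) • x = x := by rw [Nat.zero_add, one_nsmul]
    have e2 : χ ^ (0 + 1) = χ := by rw [Nat.zero_add]; exact pow_one χ
    rw [e1, e2]
    exact h
  | succ k ih =>
    have e1 : (k + 1 + 1) • x = (k + 1) • x + x := succ_nsmul x (k + 1)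
    have e2 : χ ^ (k + 1 + 1) = χ ^ (k + 1) * χ := pow_succ χ (k + 1)
    rw [e1, e2]
    exact hadd _ _ _ _ ih h

/-- **ES-A, bijection form**: for `m > 0` the torsion–character relation is the graph of a
multiplicative bijection from `Pic⁰(FC N)[m]` onto the group of Kummer characters. -/
theorem exists_equiv_of_torsionChar (h : TorsionCharStatement N) (hm : 0 < m) :
    ∃ e : ↥(Pic0.torsion ℂ ↥(FC N) m) ≃ ↥(Fermat.Agent.H94.EsA.kummerChars N m),
      (∀ x : ↥(Pic0.torsion ℂ ↥(FC N) m), TorsionCharRel N m (x : Pic0 ℂ ↥(FC N))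
        ((e x : ↥(Fermat.Agent.H94.EsA.kummerChars N m)) :
          ↥(CongruenceSubgroup.Gamma0 N) →* ℂˣ)) ∧
      (∀ x y, e (x + y) = e x * e y) := by
  obtain ⟨h1, h2, h3, h4, h5, h6⟩ := h m hm
  have hmem : ∀ x χ, TorsionCharRel N m x χ → χ ∈ Fermat.Agent.H94.EsA.kummerChars N m := by
    intro x χ hx
    obtain ⟨-, hχm, hχpe⟩ := h3 x χ hx
    exact ⟨(Fermat.Agent.H94.EsA.isParEllTrivial_iff χ).mpr hχpe, hχm⟩
  choose κ hκ using fun x : ↥(Pic0.torsion ℂ ↥(FC N) m) => h1 (x : Pic0 ℂ ↥(FC N)) x.2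
  let f : ↥(Pic0.torsion ℂ ↥(FC N) m) → ↥(Fermat.Agent.H94.EsA.kummerChars N m) :=
    fun x => ⟨κ x, hmem _ _ (hκ x)⟩
  have hfmul : ∀ x y, f (x + y) = f x * f y := by
    intro x y
    apply Subtype.ext
    show κ (x + y) = κ x * κ y
    exact h2 _ _ _ (hκ (x + y)) (h4 _ _ _ _ (hκ x) (hκ y))
  have hinj : Function.Injective f := by
    intro x y hxy
    have hκxy : κ x = κ y := congrArg Subtype.val hxy
    have hxtors : ((m : ℕ) : ℤ) • (x : Pic0 ℂ ↥(FC N)) = 0 := (Pic0.mem_torsion).mp x.2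
    have hytors : ((m : ℕ) : ℤ) • (y : Pic0 ℂ ↥(FC N)) = 0 := (Pic0.mem_torsion).mp y.2
    rcases Nat.lt_or_ge 1 m with h1m | h1m
    · -- `m ≥ 2`: `-y = (m - 1) • y`
      obtain ⟨j, hj⟩ : ∃ j, m = j + 1 + 1 := ⟨m - 2, by omega⟩
      have hyj := torsionCharRel_nsmul h4 (hκ y) j
      have hsum := h4 _ _ _ _ (hκ x) hyj
      have hχ : κ x * κ y ^ (j + 1) = 1 := by
        rw [hκxy]
        have e : κ y * κ y ^ (j + 1) = κ y ^ (j + 1 + 1) := (pow_succ' (κ y) (j + 1)).symm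
        rw [e, ← hj]
        exact (h3 _ _ (hκ y)).2.1
      rw [hχ] at hsum
      have h0 := h5 _ hsum
      have hyt : (j + 1 + 1) • (y : Pic0 ℂ ↥(FC N)) = 0 := by
        rw [← hj, ← natCast_zsmul]
        exact hytors
      rw [succ_nsmul] at hyt
      apply Subtype.ext
      have : (x : Pic0 ℂ ↥(FC N)) - y
          = (x : Pic0 ℂ ↥(FC N)) + (j + 1) • (y : Pic0 ℂ ↥(FC N)) := by
        rw [sub_eq_add_neg]
        congr 1
        exact (eq_neg_of_add_eq_zero_left hyt).symm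
      rw [← this] at h0
      exact sub_eq_zero.mp h0
    · -- `m = 1`: the torsion group is trivial
      have hm1 : ((m : ℕ) : ℤ) = 1 := by
        have : m = 1 := by omega
        exact_mod_cast this
      rw [hm1, one_zsmul] at hxtors hytors
      exact Subtype.ext (hxtors.trans hytors.symm)
  have hsurj : Function.Surjective f := by
    rintro ⟨χ, hχ⟩
    obtain ⟨x, hx⟩ := h6 χ hχ.2 ((Fermat.Agent.H94.EsA.isParEllTrivial_iff χ).mp hχ.1)
    have hxt := (h3 x χ hx).1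
    refine ⟨⟨x, hxt⟩, Subtype.ext ?_⟩
    show κ ⟨x, hxt⟩ = χ
    exact h2 _ _ _ (hκ ⟨x, hxt⟩) hx
  exact ⟨Equiv.ofBijective f ⟨hinj, hsurj⟩, fun x => hκ x, hfmul⟩

/-- The `m`-torsion of `Pic⁰(FC N)` is finite (the input of ES-B). -/
theorem finite_torsion (h : TorsionCharStatement N)
    (hfin : Fermat.Agent.H94.EsA.KummerCharsFiniteStatement N) (hm : 0 < m) :
    Finite ↥(Pic0.torsion ℂ ↥(FC N) m) := by
  obtain ⟨e, -, -⟩ := exists_equiv_of_torsionChar h hm
  have := hfin m hm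
  exact Finite.of_equiv _ e.symm

/-- Cardinality of the torsion. -/
theorem card_torsion (h : TorsionCharStatement N) (hm : 0 < m) :
    Nat.card ↥(Pic0.torsion ℂ ↥(FC N) m)
      = Nat.card ↥(Fermat.Agent.H94.EsA.kummerChars N m) := by
  obtain ⟨e, -, -⟩ := exists_equiv_of_torsionChar h hm
  exact Nat.card_congr e

end Fermat.Agent.H23.EsA

end
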