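/-
P-ES / ES-A (helper23): MAIN ASSEMBLY.  All work packages of ES-A are landed except
`DegreeCStatement N`; this file derives the main statements of ES-A from it.
-/
import Fermat.Agent.H23.EsA.PlacesC
import Fermat.Agent.H23.EsA.FinalC
import Fermat.Agent.H13.EsACoreC
import Fermat.Agent.H19.EsAPrincipalDivisorC
import Fermat.Agent.H33.EsA.PointEmbedding
import Fermat.Agent.H61.ESPoint3
import Fermat.Agent.H41.CuspDatumCFinal
import Fermat.Agent.H49.ES.LocalCountingRefined
import Fermat.Agent.H7.EsA.Loc2
import Fermat.Agent.H77.EsAGrow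
import Fermat.Agent.H41.HolRootES
import Fermat.Agent.H76.EsAChar
import Fermat.Agent.H50.EsALoc
import Fermat.Agent.H60.EsACuspStatements
import Fermat.Agent.H60.EsAGrpStatements
import Fermat.Agent.H96.EisTwisted
import Fermat.Agent.H32.EsAMF
import Fermat.Agent.H50.EsAFin
import Fermat.Agent.H94.EsA.AssemblyMap

set_option autoImplicit false

noncomputable section

open AlgebraicCurve UpperHalfPlane IntermediateField
open scoped MatrixGroups Manifold

namespace Fermat.Agent.H23.EsA

variable (N : ℕ) [NeZero N]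

/-- **[PLACES]** from `DegreeCStatement`. -/
theorem places_of_degree (hDEG : DegreeCStatement N) : PlacesStatement N :=
  places_of_parts N (Fermat.Agent.H13.esaCoreC N) (Fermat.Agent.H13.esaRsubRep N)
    (Fermat.Agent.H77.esg_repRegularStatement N (Fermat.Agent.H13.esaCoreC N)
      (Fermat.Agent.H13.esaRsubRep N))
    hDEG
    (Fermat.Agent.H33.EsAPoint.pointEmbedding N (Fermat.Agent.H13.esaCoreC N)
      (Fermat.Agent.H13.esaRsubRep N))
    (Fermat.Agent.H61.pointDatum N (Fermat.Agent.H13.esaCoreC N)
      (Fermat.Agent.H13.esaRsubRep N))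
    (Fermat.Agent.H41.cuspDatumStatement N)
    Fermat.Agent.H49.localCountingRefined
    Fermat.Agent.H7.EsA.orderMoebius
    Fermat.Agent.H7.EsA.cuspPeriod

/-- The Kummer statements from `DegreeCStatement`. -/
theorem kummer_of_degree (hDEG : DegreeCStatement N) :
    Fermat.Agent.H94.EsA.FracHolStatement N ∧
    Fermat.Agent.H94.EsA.InvariantGrowthStatement N ∧
    Fermat.Agent.H94.EsA.KummerExistsStatement N ∧
    Fermat.Agent.H94.EsA.KummerUniqueStatement N ∧
    Fermat.Agent.H94.EsA.KummerKernelStatement N ∧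
    Fermat.Agent.H94.EsA.KummerSurjStatement N := by
  have hC := Fermat.Agent.H13.esaCoreC N
  have hR := Fermat.Agent.H13.esaRsubRep N
  have hGROW := Fermat.Agent.H77.esg_invariantGrowthStatement N hC hR
  have hPL := places_of_degree N hDEG
  have hMF := Fermat.Agent.H32.modularFunction N hC hR hDEG
  refine ⟨Fermat.Agent.H94.EsA.fracHol_of_core N hC hR, hGROW, ?_,
    Fermat.Agent.H76.kummerUnique N, ?_, ?_⟩
  · exact Fermat.Agent.H94.EsA.kummerExists_of_parts N Fermat.Agent.H41.rootStatement'
      (Fermat.Agent.H76.charOfRoot N) hGROW hPL Fermat.Agent.H50.multiplierChar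
      Fermat.Agent.H50.powOrder Fermat.Agent.H60.cuspRootStatement
      Fermat.Agent.H60.ellipticFixStatement Fermat.Agent.H60.parabolicFormStatement
  · exact Fermat.Agent.H94.EsA.kummerKernel_of_parts N hMF hGROW
  · exact Fermat.Agent.H94.EsA.kummerSurj_of_parts N (Fermat.Agent.H96.twistedFunction N) hMF hPL
      Fermat.Agent.H50.multiplierChar Fermat.Agent.H50.powOrder
      Fermat.Agent.H60.cuspPowStatement Fermat.Agent.H60.fixTraceStatement

/-- **ES-A MAIN (Kummer map form)** from `DegreeCStatement`. -/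
theorem kummerMap_of_degree (hDEG : DegreeCStatement N) :
    Fermat.Agent.H94.EsA.KummerMapStatement N := by
  obtain ⟨h1, h2, h3, h4, h5, h6⟩ := kummer_of_degree N hDEG
  exact Fermat.Agent.H94.EsA.kummerMap_of_parts N h1 h2 h3 h4 h5 h6

/-- **ES-A MAIN (Pic⁰ form)** from `DegreeCStatement`. -/
theorem torsionChar_of_degree (hDEG : DegreeCStatement N) : TorsionCharStatement N := by
  obtain ⟨h1, h2, h3, h4, h5, h6⟩ := kummer_of_degree N hDEG
  exact torsionChar_of_kummer N (Fermat.Agent.H19.principalDivisorC_of_degreeC N hDEG)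
    h1 h2 h3 h4 h5 h6

/-- **ES-A → ES-B**: the `m`-torsion of `Pic⁰` of the function field of `X₀(N)` over `ℂ` is
finite. -/
theorem finite_torsion_of_degree (hDEG : DegreeCStatement N) {m : ℕ} (hm : 0 < m) :
    Finite ↥(Pic0.torsion ℂ ↥(FC N) m) :=
  finite_torsion (torsionChar_of_degree N hDEG) (Fermat.Agent.H50.kummerCharsFinite N) hm

end Fermat.Agent.H23.EsA

end
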